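/-
K-machine, piece LOC-gen (helper65): INTERFACE.

For a prime `r ≠ p` there are `σ_r` in the inertia group and a Frobenius element `φ_r` in the
decomposition group of `padicPlace r` (a fixed place of `ℚ̄` over `r`) such that for EVERY
homomorphism `h` from `G_ℚ` to a monoid, trivial on some `Gal(ℚ̄/L)` (`L/ℚ` finite) and mapping the
inertia group at `padicPlace r` to elements of `p`-power order:

* `h(I_r)` consists of powers of `h σ_r`;
* `h(D_r)` is contained in the submonoid generated by `h σ_r` and `h φ_r`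
  (in the group version: the subgroup generated by them);
* `h φ_r * h σ_r = h σ_r ^ r * h φ_r`.

`σ_r`, `φ_r` do NOT depend on `h` (compactness of the inertia group + `TW.W.stmtTameGen`).

Use for `ρ : GaloisRepAdic A`, `A` a finite local ring of residue characteristic `p`, whose
residual representation is trivial on `I_r`: `h := ρ.ρ`, `L` from `ρ.isAdicContinuous n` with
`𝔪 ^ n = 0`, and `ρ(τ) ≡ 1 mod 𝔪` gives `ρ(τ) ^ p ^ k = 1`.
-/
import Fermat.Agent.TW.W.Plan3

set_option autoImplicit false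

namespace Fermat.Agent.RT.K1

open Fermat.Agent.PT Fermat.Agent.PT.B Fermat.Agent.TW.L ExtCitation

/-- **LOC-gen, local core** (helper57): uniform generators of the images of `I_r` and `G_{ℚ_r}`
in every finite-level quotient in which the image of inertia is a `p`-group. -/
def StmtLocGenLocal : Prop :=
  ∀ (r p : ℕ) [Fact r.Prime] [Fact p.Prime], r ≠ p →
    ∃ σ ∈ inertiaQ r, ∃ φ : GQq r, IsFrobQ r φ ∧
      ∀ (B : Type) [Group B] (h : GQq r →* B), (∃ V ∈ (towerLoc r).lev, ∀ v ∈ V, h v = 1) →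
        (∀ x ∈ inertiaQ r, ∃ k : ℕ, h x ^ (p ^ k) = 1) →
        (∀ x ∈ inertiaQ r, ∃ m : ℕ, h x = h σ ^ m) ∧
        (∀ x : GQq r, ∃ j m : ℕ, h x = h φ ^ j * h σ ^ m) ∧
        h φ * h σ * (h φ)⁻¹ = h σ ^ r

/-- the hypotheses on `h` in LOC-gen: smooth, and of `p`-power order on the inertia group at
`padicPlace r`. -/
def IsTameP (r p : ℕ) [Fact r.Prime] {M : Type} [Monoid M]
    (h : (AlgebraicClosure ℚ ≃ₐ[ℚ] AlgebraicClosure ℚ) →* M) : Prop :=
  (∃ L : IntermediateField ℚ (AlgebraicClosure ℚ), FiniteDimensional ℚ L ∧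
    ∀ g : AlgebraicClosure ℚ ≃ₐ[ℚ] AlgebraicClosure ℚ, (∀ x ∈ L, g x = x) → h g = 1) ∧
  ∀ τ ∈ (padicPlace r).inertiaSubgroupIn ℚ, ∃ k : ℕ, h τ ^ p ^ k = 1

/-- **LOC-gen**, monoid form (targets `Module.End A V`). -/
def StmtLocGen : Prop :=
  ∀ (r p : ℕ) [Fact r.Prime] [Fact p.Prime], r ≠ p →
    ∃ σ ∈ (padicPlace r).inertiaSubgroupIn ℚ,
    ∃ φ : AlgebraicClosure ℚ ≃ₐ[ℚ] AlgebraicClosure ℚ, (padicPlace r).IsFrobeniusAt φ r ∧
      ∀ (M : Type) [Monoid M] (h : (AlgebraicClosure ℚ ≃ₐ[ℚ] AlgebraicClosure ℚ) →* M),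
        IsTameP r p h →
        (∀ τ ∈ (padicPlace r).inertiaSubgroupIn ℚ, ∃ m : ℕ, h τ = h σ ^ m) ∧
        (∀ τ ∈ (padicPlace r).decompositionSubgroup ℚ,
          ∃ m n : ℕ, h τ = h σ ^ m * h φ ^ n) ∧
        h φ * h σ = h σ ^ r * h φ

end Fermat.Agent.RT.K1
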