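/-
K-machine, piece LOC-gen (helper65): the hypothesis `IsTameP` for representations.

* `rtk1w_pow_sub_one`   : `u ≡ 1 mod 𝔪`, `p ∈ 𝔪` ⇒ `u ^ p ^ k ≡ 1 mod 𝔪 ^ (k + 1)` (endomorphisms).
* `rtk1w_isTameP`       : `ρ : GaloisRepAdic A`, `𝔪_A` nilpotent, `p ∈ 𝔪_A`, `ρ(τ) ≡ 1 mod 𝔪_A` for
                          `τ` in the inertia group at `padicPlace r` ⇒ `IsTameP r p ρ.ρ`.
* `rtk1w_isTameP_artinian` : the same for an artinian (e.g. finite) local ring `A`.
-/
import Fermat.Agent.RT.K1.TameGenPlan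

set_option autoImplicit false
set_option linter.unusedSectionVars false
set_option linter.style.haveILetI false

namespace Fermat.Agent.RT.K1

open Fermat.Agent.PT Fermat.Agent.PT.B Fermat.Agent.TW.L ExtCitation

section Endo

variable {A : Type*} [CommRing A] {V : Type*} [AddCommGroup V] [Module A V]

/-- endomorphisms with image in `I V`. -/
def rtk1wJ (I : Ideal A) : Set (Module.End A V) :=
  {f | ∀ v : V, f v ∈ I • (⊤ : Submodule A V)}

theorem rtk1wJ_mono {I I' : Ideal A} (h : I ≤ I') {f : Module.End A V}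
    (hf : f ∈ rtk1wJ I) : f ∈ rtk1wJ I' :=
  fun v => Submodule.smul_mono_left h (hf v)

theorem rtk1wJ_add {I : Ideal A} {f g : Module.End A V} (hf : f ∈ rtk1wJ I)
    (hg : g ∈ rtk1wJ I) : f + g ∈ rtk1wJ I :=
  fun v => add_mem (hf v) (hg v)

theorem rtk1wJ_zero (I : Ideal A) : (0 : Module.End A V) ∈ rtk1wJ I :=
  fun _ => zero_mem _

theorem rtk1wJ_sum {I : Ideal A} {ι : Type*} (s : Finset ι) (f : ι → Module.End A V)
    (hf : ∀ i ∈ s, f i ∈ rtk1wJ I) : ∑ i ∈ s, f i ∈ rtk1wJ I := by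
  classical
  induction s using Finset.induction_on with
  | empty => simpa using rtk1wJ_zero I
  | insert a s ha ih =>
    rw [Finset.sum_insert ha]
    exact rtk1wJ_add (hf a (Finset.mem_insert_self a s))
      (ih (fun i hi => hf i (Finset.mem_insert_of_mem hi)))

/-- `g (I V) ⊆ (I I') V` for `g` with image in `I' V`. -/
theorem rtk1wJ_map_smul {I I' : Ideal A} {g : Module.End A V} (hg : g ∈ rtk1wJ I')
    {x : V} (hx : x ∈ I • (⊤ : Submodule A V)) : g x ∈ (I * I') • (⊤ : Submodule A V) := by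
  refine Submodule.smul_induction_on hx (fun a ha m _ => ?_) (fun x y hx hy => ?_)
  · rw [map_smul, Submodule.mul_smul]
    exact Submodule.smul_mem_smul ha (hg m)
  · rw [map_add]
    exact add_mem hx hy

theorem rtk1wJ_mul {I I' : Ideal A} {f g : Module.End A V} (hf : f ∈ rtk1wJ I)
    (hg : g ∈ rtk1wJ I') : g * f ∈ rtk1wJ (I * I') :=
  fun v => rtk1wJ_map_smul hg (hf v)

/-- left multiplication preserves `J I` -/
theorem rtk1wJ_mul_left {I : Ideal A} (g : Module.End A V) {f : Module.End A V}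
    (hf : f ∈ rtk1wJ I) : g * f ∈ rtk1wJ I := by
  have hg : g ∈ rtk1wJ (⊤ : Ideal A) := fun v => by
    rw [Submodule.top_smul]
    exact Submodule.mem_top
  have := rtk1wJ_mul hf hg
  rwa [Ideal.mul_top] at this

theorem rtk1wJ_pow_sub_one {I : Ideal A} {w : Module.End A V} (hw : w - 1 ∈ rtk1wJ I) (i : ℕ) :
    w ^ i - 1 ∈ rtk1wJ I := by
  induction i with
  | zero =>
    rw [pow_zero, sub_self]
    exact rtk1wJ_zero I
  | succ i ih =>
    have e : w ^ (i + 1) - 1 = w ^ i * (w - 1) + (w ^ i - 1) := by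
      rw [pow_succ]
      noncomm_ring
    rw [e]
    exact rtk1wJ_add (rtk1wJ_mul_left _ hw) ih

/-- `u ≡ 1 mod 𝔪`, `p ∈ 𝔪` ⇒ `u ^ p ^ k ≡ 1 mod 𝔪 ^ (k + 1)`. -/
theorem rtk1w_pow_sub_one {I : Ideal A} {p : ℕ} (hp : (p : A) ∈ I) {u : Module.End A V}
    (hu : u - 1 ∈ rtk1wJ I) (k : ℕ) : u ^ p ^ k - 1 ∈ rtk1wJ (I ^ (k + 1)) := by
  induction k with
  | zero =>
    rw [pow_zero, pow_one, pow_one]
    exact hu
  | succ k ih =>
    set w := u ^ p ^ k with hw
    have hw1 : w - 1 ∈ rtk1wJ I := rtk1wJ_mono (Ideal.pow_le_self (Nat.succ_ne_zero k)) ih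
    have hS : (∑ i ∈ Finset.range p, w ^ i) ∈ rtk1wJ I := by
      have e : (∑ i ∈ Finset.range p, w ^ i) =
          (∑ i ∈ Finset.range p, (w ^ i - 1)) + (p : Module.End A V) := by
        rw [Finset.sum_sub_distrib, Finset.sum_const, Finset.card_range, nsmul_eq_mul, mul_one]
        abel
      rw [e]
      refine rtk1wJ_add (rtk1wJ_sum _ _ (fun i _ => rtk1wJ_pow_sub_one hw1 i)) (fun v => ?_)
      have e2 : (p : Module.End A V) v = (p : A) • v := by
        rw [Module.End.natCast_apply, Nat.cast_smul_eq_nsmul]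
      rw [e2]
      exact Submodule.smul_mem_smul hp Submodule.mem_top
    have e : u ^ p ^ (k + 1) - 1 = (∑ i ∈ Finset.range p, w ^ i) * (w - 1) := by
      rw [geom_sum_mul, hw, ← pow_mul, pow_succ]
    rw [e, pow_succ I (k + 1)]
    exact rtk1wJ_mul ih hS

end Endo

section Rep

variable {A : Type} [CommRing A] [IsLocalRing A]

/-- `IsTameP` for a representation over a local ring with nilpotent maximal ideal containing `p`,
residually trivial on the inertia group at `padicPlace r`. -/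
theorem rtk1w_isTameP (r p : ℕ) [Fact r.Prime] (hpA : (p : A) ∈ IsLocalRing.maximalIdeal A)
    (hnil : ∃ n : ℕ, IsLocalRing.maximalIdeal A ^ n = ⊥) (ρ : GaloisRepAdic A)
    (hres : ∀ τ ∈ (padicPlace r).inertiaSubgroupIn ℚ, ∀ v : ρ.V,
      ρ.ρ τ v - v ∈ IsLocalRing.maximalIdeal A • (⊤ : Submodule A ρ.V)) :
    IsTameP r p ρ.ρ := by
  obtain ⟨n, hn⟩ := hnil
  refine ⟨?_, ?_⟩
  · obtain ⟨L, hL, hLρ⟩ := ρ.isAdicContinuous n
    refine ⟨L, hL, fun g hg => ?_⟩
    apply LinearMap.ext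
    intro v
    have := hLρ g hg v
    rw [hn, Submodule.bot_smul, Submodule.mem_bot, sub_eq_zero] at this
    exact this
  · intro τ hτ
    refine ⟨n, ?_⟩
    have h1 : ρ.ρ τ - 1 ∈ rtk1wJ (IsLocalRing.maximalIdeal A) := fun v => hres τ hτ v
    have h2 := rtk1w_pow_sub_one hpA h1 n
    have h3 : IsLocalRing.maximalIdeal A ^ (n + 1) = ⊥ := by
      rw [pow_succ, hn, Ideal.bot_mul]
    rw [h3] at h2
    apply LinearMap.ext
    intro v
    have h4 := h2 v
    rw [Submodule.bot_smul, Submodule.mem_bot] at h4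
    have h5 : (ρ.ρ τ ^ p ^ n - 1) v = (ρ.ρ τ ^ p ^ n) v - v := rfl
    rw [h5, sub_eq_zero] at h4
    rw [h4]
    rfl

/-- the same for an artinian (e.g. finite) local ring. -/
theorem rtk1w_isTameP_artinian [IsArtinianRing A] (r p : ℕ) [Fact r.Prime]
    (hpA : (p : A) ∈ IsLocalRing.maximalIdeal A) (ρ : GaloisRepAdic A)
    (hres : ∀ τ ∈ (padicPlace r).inertiaSubgroupIn ℚ, ∀ v : ρ.V,
      ρ.ρ τ v - v ∈ IsLocalRing.maximalIdeal A • (⊤ : Submodule A ρ.V)) :
    IsTameP r p ρ.ρ := by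
  refine rtk1w_isTameP r p hpA ?_ ρ hres
  have h := IsArtinianRing.isNilpotent_jacobson_bot (R := A)
  rw [IsLocalRing.jacobson_eq_maximalIdeal (⊥ : Ideal A) bot_ne_top] at h
  obtain ⟨n, hn⟩ := h
  exact ⟨n, hn⟩

end Rep

end Fermat.Agent.RT.K1
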