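/-
K-machine, piece LOC-gen (helper65): the wrapper `stmtLocGen_of : StmtLocGenLocal → StmtLocGen`
(local core ⇒ global monoid form at `padicPlace r`).
-/
import Fermat.Agent.RT.K1.TameGenPlan
import Fermat.Agent.TW.L.DecFull

set_option autoImplicit false
set_option linter.unusedSectionVars false
set_option linter.style.haveILetI false

namespace Fermat.Agent.RT.K1

open Fermat.Agent.PT Fermat.Agent.PT.B Fermat.Agent.TW.L ExtCitation

section Grp

variable {B : Type} [Group B]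

/-- `F S F⁻¹ = S ^ r` ⇒ `F S^m F⁻¹ = S^(r m)`. -/
theorem rtk1w_conj_pow {F S : B} {r : ℕ} (h : F * S * F⁻¹ = S ^ r) (m : ℕ) :
    F * S ^ m * F⁻¹ = S ^ (r * m) := by
  rw [pow_mul, ← h, conj_pow]

/-- `F S F⁻¹ = S ^ r` ⇒ `F^j S^m = S^(r^j m) F^j`. -/
theorem rtk1w_pow_mul_pow {F S : B} {r : ℕ} (h : F * S * F⁻¹ = S ^ r) (j m : ℕ) :
    F ^ j * S ^ m = S ^ (r ^ j * m) * F ^ j := by
  induction j generalizing m with
  | zero => simp
  | succ j ih =>
    have h1 : F * S ^ (r ^ j * m) = S ^ (r * (r ^ j * m)) * F := by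
      have := rtk1w_conj_pow h (r ^ j * m)
      rw [← this]
      group
    calc F ^ (j + 1) * S ^ m = F * (F ^ j * S ^ m) := by rw [pow_succ']; group
      _ = F * (S ^ (r ^ j * m) * F ^ j) := by rw [ih]
      _ = (F * S ^ (r ^ j * m)) * F ^ j := by group
      _ = S ^ (r * (r ^ j * m)) * F * F ^ j := by rw [h1]
      _ = S ^ (r ^ (j + 1) * m) * F ^ (j + 1) := by
          rw [pow_succ' F, pow_succ' r, mul_assoc, mul_assoc]

end Grp

/-- **LOC-gen** from its local core. -/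
theorem stmtLocGen_of (hloc : StmtLocGenLocal) : StmtLocGen := by
  intro r p _ _ hrp
  obtain ⟨σ', hσ', φ', hφ', huniv⟩ := hloc r p hrp
  refine ⟨localGaloisToGlobal r σ', (mem_inertiaQ r σ').1 hσ', localGaloisToGlobal r φ', hφ', ?_⟩
  intro M _ h ⟨⟨L, hL, hLh⟩, hp⟩
  set hB : GQq r →* Mˣ := h.toHomUnits.comp (localGaloisToGlobal r) with hBdef
  have hBval : ∀ x : GQq r, ((hB x : Mˣ) : M) = h (localGaloisToGlobal r x) := fun x => rfl
  have hlev : ∃ V ∈ (towerLoc r).lev, ∀ v ∈ V, hB v = 1 := by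
    refine ⟨L.fixingSubgroup.comap (localGaloisToGlobal r), ⟨L, hL, rfl⟩, fun v hv => ?_⟩
    apply Units.ext
    rw [hBval, Units.val_one]
    apply hLh
    intro x hx
    exact (IntermediateField.mem_fixingSubgroup_iff L _).1 hv x hx
  have hpow : ∀ x ∈ inertiaQ r, ∃ k : ℕ, hB x ^ (p ^ k) = 1 := by
    intro x hx
    obtain ⟨k, hk⟩ := hp _ ((mem_inertiaQ r x).1 hx)
    refine ⟨k, Units.ext ?_⟩
    rw [Units.val_pow_eq_pow_val, hBval, hk, Units.val_one]
  obtain ⟨h1, h2, h3⟩ := huniv Mˣ hB hlev hpow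
  have hID : (padicPlace r).inertiaSubgroupIn ℚ ≤ (padicPlace r).decompositionSubgroup ℚ := by
    rintro τ ⟨x, -, rfl⟩
    exact x.2
  refine ⟨fun τ hτ => ?_, fun τ hτ => ?_, ?_⟩
  · obtain ⟨τ', rfl⟩ := stmtDecFull r τ (hID hτ)
    obtain ⟨m, hm⟩ := h1 τ' hτ
    refine ⟨m, ?_⟩
    rw [← hBval, hm, Units.val_pow_eq_pow_val, hBval]
  · obtain ⟨τ', rfl⟩ := stmtDecFull r τ hτ
    obtain ⟨j, m, hjm⟩ := h2 τ'
    refine ⟨r ^ j * m, j, ?_⟩
    rw [← hBval, hjm, rtk1w_pow_mul_pow h3, Units.val_mul, Units.val_pow_eq_pow_val,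
      Units.val_pow_eq_pow_val, hBval, hBval]
  · have h4 : hB φ' * hB σ' = hB σ' ^ r * hB φ' := by
      rw [← h3]
      group
    have h5 := congrArg (Units.val) h4
    rw [Units.val_mul, Units.val_mul, Units.val_pow_eq_pow_val, hBval, hBval] at h5
    exact h5

end Fermat.Agent.RT.K1
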