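/-
K-machine, piece LOC-gen, LOCAL CORE (helper57): `stmtLocGenLocal : StmtLocGenLocal`.

For primes `r ≠ p`: `σ` := ANY element of the inertia group `I_r ⊂ G_{ℚ_r}` which moves a `p`-th
root `ϖ` of `r` (exists because an element of `ℚ̄_r` fixed by `I_r` has norm in `r^ℤ`,
`TW.W.wgr_unr`), `φ` := any Frobenius element.  No compactness is needed: for a homomorphism `h`
of finite level with `h(I_r)` a `p`-group, the joint homomorphism
`H = (h, x ↦ x ϖ / ϖ) : I_r → B × μ_p` has finite exponent `p ^ K`; `TW.W.stmtTameGen` gives a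
level generator `t` with `H(I_r) = ⟨H t⟩`; `H σ = (H t) ^ m₀` with `p ∤ m₀` since `σ ϖ ≠ ϖ`, so
`H t ∈ ⟨H σ⟩`.  The Frobenius relation is transported from `t` to `σ`, and `G_{ℚ_r}` is generated
by `φ` and `I_r` modulo every level (`TW.L.stmtFrobGen`).
-/
import Fermat.Agent.RT.K1.TameGenPlan
import Fermat.Agent.TW.W.StrTame
import Fermat.Agent.TW.W.GrUnr
import Fermat.Agent.TW.W.GrOmega
import Fermat.Agent.TW.W.GrFrob
import Fermat.Agent.TW.L.FrobGen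
import Fermat.Agent.TW.L.FrobExistsFinal

set_option autoImplicit false
set_option linter.unusedSectionVars false
set_option linter.style.haveILetI false

noncomputable section

namespace Fermat.Agent.RT.K1

open Fermat.Agent.PT Fermat.Agent.PT.B Fermat.Agent.PT.L Fermat.Agent.TW.L Fermat.Agent.TW.W
  ExtCitation

section Core

variable (r : ℕ) [Fact r.Prime]

/-- a prime `p ≠ r` is a unit of `ℚ̄_r` -/
theorem rtk1t_norm_prime {p : ℕ} (hp : p.Prime) (hrp : r ≠ p) : ¬ ‖(p : PadicAlgCl r)‖ < 1 := by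
  have h : (p : PadicAlgCl r) = algebraMap ℚ_[r] (PadicAlgCl r) ((p : ℤ) : ℚ_[r]) := by
    rw [Int.cast_natCast, map_natCast]
  rw [h, norm_algebraMap', Padic.norm_intCast_lt_one_iff]
  intro hdvd
  have h1 : r ∣ p := by exact_mod_cast hdvd
  exact hrp ((Nat.prime_dvd_prime_iff_eq (Fact.out : r.Prime) hp).1 h1)

/-- `‖r‖ = r⁻¹` in `ℚ̄_r` -/
theorem rtk1t_norm_r : ‖(r : PadicAlgCl r)‖ = (r : ℝ)⁻¹ := by
  have h : (r : PadicAlgCl r) = algebraMap ℚ_[r] (PadicAlgCl r) (r : ℚ_[r]) := by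
    rw [map_natCast]
  rw [h, norm_algebraMap', Padic.norm_p]

/-- a root of unity of `ℚ̄_r` has norm `1` -/
theorem rtk1t_norm_root {n : ℕ} (hn : n ≠ 0) {u : PadicAlgCl r} (hu : u ^ n = 1) : ‖u‖ = 1 := by
  have h : ‖u‖ ^ n = 1 := by rw [← norm_pow, hu, norm_one]
  exact (pow_eq_one_iff_of_nonneg (norm_nonneg _) hn).1 h

/-- the `p`-th roots of unity are distinct modulo the maximal ideal of `ℚ̄_r` (`p ≠ r`) -/
theorem rtk1t_root_eq_one {p : ℕ} (hp : p.Prime) (hrp : r ≠ p) {u : PadicAlgCl r}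
    (hu : u ^ p = 1) (hu1 : ‖u - 1‖ < 1) : u = 1 := by
  by_contra hne
  have hun : ‖u‖ ≤ 1 := (rtk1t_norm_root r hp.ne_zero hu).le
  have hsum : ∑ i ∈ Finset.range p, u ^ i = 0 := by
    have h1 := mul_geom_sum u p
    rw [hu, sub_self] at h1
    rcases mul_eq_zero.1 h1 with h | h
    · exact absurd (sub_eq_zero.1 h) hne
    · exact h
  have h2 := wgr_omega_geom r hun hu1 p
  rw [hsum, zero_sub, norm_neg] at h2
  exact rtk1t_norm_prime r hp hrp h2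

/-- the inertia group at `r` fixes the `p`-th roots of unity (`p ≠ r`) -/
theorem rtk1t_inert_fix_root {p : ℕ} (hp : p.Prime) (hrp : r ≠ p) {η : PadicAlgCl r}
    (hη : η ^ p = 1) {x : GQq r} (hx : x ∈ inertiaQ r) : x η = η := by
  have hηn : ‖η‖ = 1 := rtk1t_norm_root r hp.ne_zero hη
  have hη0 : η ≠ 0 := by
    intro h
    rw [h, norm_zero] at hηn
    exact zero_ne_one hηn
  have h1 := (wgr_inert_iff r x).1 hx η hηn.le
  have hu : (x η / η) ^ p = 1 := by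
    rw [div_pow, ← map_pow, hη, map_one, div_one]
  have hu1 : ‖x η / η - 1‖ < 1 := by
    have e : x η / η - 1 = (x η - η) / η := by field_simp
    rw [e, norm_div, hηn, div_one]
    exact h1
  exact (div_eq_one_iff_eq hη0).1 (rtk1t_root_eq_one r hp hrp hu hu1)

/-- some element of the inertia group moves a `p`-th root of `r` -/
theorem rtk1t_exists_sigma {p : ℕ} (hp : p.Prime) {ϖ : PadicAlgCl r}
    (hϖ : ϖ ^ p = (r : PadicAlgCl r)) : ∃ σ ∈ inertiaQ r, σ ϖ ≠ ϖ := by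
  by_contra hcon
  have hfix : ∀ τ ∈ inertiaQ r, τ ϖ = ϖ := fun τ hτ => by
    by_contra h
    exact hcon ⟨τ, hτ, h⟩
  have hr : r.Prime := Fact.out
  have hr0 : (r : PadicAlgCl r) ≠ 0 := by
    intro h
    have := rtk1t_norm_r r
    rw [h, norm_zero] at this
    have hpos : (0 : ℝ) < (r : ℝ)⁻¹ := inv_pos.2 (by exact_mod_cast hr.pos)
    exact (ne_of_gt hpos) this.symm
  have hϖ0 : ϖ ≠ 0 := by
    intro h
    rw [h, zero_pow hp.ne_zero] at hϖ
    exact hr0 hϖ.symm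
  obtain ⟨m, hm⟩ := wgr_unr r hϖ0 hfix
  have h1 : ‖ϖ‖ ^ p = (r : ℝ)⁻¹ := by rw [← norm_pow, hϖ, rtk1t_norm_r]
  have hr1 : (1 : ℝ) < r := by exact_mod_cast hr.one_lt
  have h2 : ((r : ℝ)) ^ (m * (p : ℤ)) = (r : ℝ) ^ (-1 : ℤ) := by
    rw [zpow_mul, zpow_natCast, ← hm, h1, zpow_neg_one]
  have h3 : m * (p : ℤ) = -1 := zpow_right_injective₀ (by linarith) hr1.ne' h2
  have h4 : (p : ℤ) ∣ 1 := ⟨-m, by linear_combination h3⟩
  have h5 : (p : ℤ) ≤ 1 := Int.le_of_dvd one_pos h4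
  have h6 : 2 ≤ p := hp.two_le
  omega

/-- the Kummer character `x ↦ x ϖ / ϖ` of the inertia group, `ϖ ^ p = r` -/
def rtk1tKum {p : ℕ} (hp : p.Prime) (hrp : r ≠ p) (ϖ : PadicAlgCl r) (hϖ0 : ϖ ≠ 0)
    (hϖ : ϖ ^ p = (r : PadicAlgCl r)) : ↥(inertiaQ r) →* (PadicAlgCl r)ˣ where
  toFun x := Units.mk0 ((x : GQq r) ϖ / ϖ)
    (div_ne_zero ((map_ne_zero_iff _ (x : GQq r).injective).2 hϖ0) hϖ0)
  map_one' := by
    apply Units.ext
    show ((1 : GQq r)) ϖ / ϖ = 1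
    rw [AlgEquiv.one_apply, div_self hϖ0]
  map_mul' x y := by
    apply Units.ext
    show ((x : GQq r) * (y : GQq r)) ϖ / ϖ = ((x : GQq r) ϖ / ϖ) * ((y : GQq r) ϖ / ϖ)
    have hy : ((y : GQq r) ϖ / ϖ) ^ p = 1 := by
      rw [div_pow, ← map_pow, hϖ, map_natCast, ← hϖ, div_self (pow_ne_zero _ hϖ0)]
    have hfix := rtk1t_inert_fix_root r hp hrp hy x.2
    have e : (y : GQq r) ϖ = ((y : GQq r) ϖ / ϖ) * ϖ := by field_simp
    rw [AlgEquiv.mul_apply]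
    conv_lhs => rw [e, map_mul, hfix]
    field_simp

theorem rtk1tKum_apply {p : ℕ} (hp : p.Prime) (hrp : r ≠ p) (ϖ : PadicAlgCl r) (hϖ0 : ϖ ≠ 0)
    (hϖ : ϖ ^ p = (r : PadicAlgCl r)) (x : ↥(inertiaQ r)) :
    ((rtk1tKum r hp hrp ϖ hϖ0 hϖ x : (PadicAlgCl r)ˣ) : PadicAlgCl r) = (x : GQq r) ϖ / ϖ := rfl

theorem rtk1tKum_pow {p : ℕ} (hp : p.Prime) (hrp : r ≠ p) (ϖ : PadicAlgCl r) (hϖ0 : ϖ ≠ 0)
    (hϖ : ϖ ^ p = (r : PadicAlgCl r)) (x : ↥(inertiaQ r)) :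
    (rtk1tKum r hp hrp ϖ hϖ0 hϖ x) ^ p = 1 := by
  apply Units.ext
  rw [Units.val_pow_eq_pow_val, rtk1tKum_apply, Units.val_one, div_pow, ← map_pow, hϖ,
    map_natCast, ← hϖ, div_self (pow_ne_zero _ hϖ0)]

theorem rtk1tKum_eq_one_iff {p : ℕ} (hp : p.Prime) (hrp : r ≠ p) (ϖ : PadicAlgCl r)
    (hϖ0 : ϖ ≠ 0) (hϖ : ϖ ^ p = (r : PadicAlgCl r)) (x : ↥(inertiaQ r)) :
    rtk1tKum r hp hrp ϖ hϖ0 hϖ x = 1 ↔ (x : GQq r) ϖ = ϖ := by
  constructor
  · intro h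
    have h1 := congrArg (fun u : (PadicAlgCl r)ˣ => (u : PadicAlgCl r)) h
    simp only [rtk1tKum_apply, Units.val_one] at h1
    exact (div_eq_one_iff_eq hϖ0).1 h1
  · intro h
    apply Units.ext
    rw [rtk1tKum_apply, h, div_self hϖ0, Units.val_one]

end Core

/-- in a group: `a = b ^ m₀`, `b ^ N = 1`, `m₀` prime to `N` ⇒ `b` is a power of `a` -/
theorem rtk1t_pow_of_coprime {A : Type*} [Group A] {a b : A} {m₀ N : ℕ} (hab : a = b ^ m₀)
    (hb : b ^ N = 1) (hcop : Nat.Coprime m₀ N) : ∃ m₁ : ℕ, b = a ^ m₁ := by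
  rcases Nat.lt_or_ge 1 N with h1 | h1
  · obtain ⟨m₁, -, hm₁⟩ := Nat.exists_mul_mod_eq_one_of_coprime hcop h1
    refine ⟨m₁, ?_⟩
    rw [hab, ← pow_mul, pow_eq_pow_mod (m₀ * m₁) hb, hm₁, pow_one]
  · rcases Nat.eq_zero_or_pos N with h0 | h0
    · rw [h0, Nat.coprime_zero_right] at hcop
      exact ⟨1, by rw [hab, hcop, pow_one, pow_one]⟩
    · have hN : N = 1 := by omega
      rw [hN, pow_one] at hb
      exact ⟨0, by rw [pow_zero, hb]⟩

/-- **LOC-gen, local core.** -/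
theorem stmtLocGenLocal : StmtLocGenLocal := by
  intro r p _ _ hrp
  have hr : r.Prime := Fact.out
  have hp : p.Prime := Fact.out
  -- a `p`-th root of `r`, coming from `ℚ̄`
  obtain ⟨ϖ₀, hϖ₀⟩ := IsAlgClosed.exists_pow_nat_eq ((r : ℕ) : AlgebraicClosure ℚ) hp.pos
  have hϖ : (padicEmbedding r ϖ₀) ^ p = (r : PadicAlgCl r) := by
    rw [← map_pow, hϖ₀, map_natCast]
  have hr0 : (r : PadicAlgCl r) ≠ 0 := by
    intro h
    have h1 := rtk1t_norm_r r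
    rw [h, norm_zero] at h1
    have hpos : (0 : ℝ) < (r : ℝ)⁻¹ := inv_pos.2 (by exact_mod_cast hr.pos)
    exact (ne_of_gt hpos) h1.symm
  have hϖ0 : padicEmbedding r ϖ₀ ≠ 0 := by
    intro h
    rw [h, zero_pow hp.ne_zero] at hϖ
    exact hr0 hϖ.symm
  obtain ⟨σ, hσ, hσϖ⟩ := rtk1t_exists_sigma r hp hϖ
  obtain ⟨φ, hφ⟩ := stmtFrobExists r
  refine ⟨σ, hσ, φ, hφ, ?_⟩
  intro B _ h hlev hpg
  obtain ⟨V, hV, hVh⟩ := hlev
  -- the level of `ϖ`
  have hint : IsIntegral ℚ ϖ₀ :=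
    ((AlgebraicClosure.isAlgebraic ℚ).isAlgebraic ϖ₀).isIntegral
  haveI hfd : FiniteDimensional ℚ (IntermediateField.adjoin ℚ {ϖ₀}) :=
    IntermediateField.adjoin.finiteDimensional hint
  have hV₁ : (IntermediateField.adjoin ℚ {ϖ₀}).fixingSubgroup.comap (localGaloisToGlobal r) ∈
      (towerLoc r).lev := ⟨_, hfd, rfl⟩
  have hV₁fix : ∀ x : GQq r,
      x ∈ (IntermediateField.adjoin ℚ {ϖ₀}).fixingSubgroup.comap (localGaloisToGlobal r) →
      x (padicEmbedding r ϖ₀) = padicEmbedding r ϖ₀ := by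
    intro x hx
    have h1 := (IntermediateField.mem_fixingSubgroup_iff _ _).1 (Subgroup.mem_comap.1 hx) ϖ₀
      (IntermediateField.mem_adjoin_simple_self ℚ ϖ₀)
    rw [← padicEmbedding_localGaloisToGlobal]
    exact congrArg _ h1
  have hV' := (towerLoc r).inf_mem _ _ hV hV₁
  -- the joint homomorphism
  let g : ↥(inertiaQ r) →* (PadicAlgCl r)ˣ := rtk1tKum r hp hrp (padicEmbedding r ϖ₀) hϖ0 hϖ
  let H : ↥(inertiaQ r) →* B × (PadicAlgCl r)ˣ := (h.comp (inertiaQ r).subtype).prod g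
  have hH1 : ∀ x : ↥(inertiaQ r), (H x).1 = h (x : GQq r) := fun x => rfl
  have hH2 : ∀ x : ↥(inertiaQ r), (H x).2 = g x := fun x => rfl
  have hHtriv : ∀ x : ↥(inertiaQ r), (x : GQq r) ∈
      V ⊓ (IntermediateField.adjoin ℚ {ϖ₀}).fixingSubgroup.comap (localGaloisToGlobal r) →
      H x = 1 := by
    intro x hx
    refine Prod.ext ?_ ?_
    · rw [hH1]
      exact hVh _ hx.1
    · rw [hH2]
      exact (rtk1tKum_eq_one_iff r hp hrp _ hϖ0 hϖ x).2 (hV₁fix _ hx.2)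
  -- the range is a finite `p`-group
  haveI hfi : (V ⊓ (IntermediateField.adjoin ℚ {ϖ₀}).fixingSubgroup.comap
      (localGaloisToGlobal r)).FiniteIndex := (towerLoc r).finiteIndex _ hV'
  haveI hfi2 : ((V ⊓ (IntermediateField.adjoin ℚ {ϖ₀}).fixingSubgroup.comap
      (localGaloisToGlobal r)).subgroupOf (inertiaQ r)).FiniteIndex := inferInstance
  have hle : (V ⊓ (IntermediateField.adjoin ℚ {ϖ₀}).fixingSubgroup.comap
      (localGaloisToGlobal r)).subgroupOf (inertiaQ r) ≤ H.ker := by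
    intro x hx
    rw [MonoidHom.mem_ker]
    exact hHtriv x (Subgroup.mem_subgroupOf.1 hx)
  haveI hfi3 : H.ker.FiniteIndex := Subgroup.finiteIndex_of_le hle
  haveI hfinq : Finite (↥(inertiaQ r) ⧸ H.ker) := inferInstance
  haveI hfinA : Finite H.range :=
    Finite.of_equiv _ (QuotientGroup.quotientKerEquivRange H).toEquiv
  have hpgA : IsPGroup p H.range := by
    rintro ⟨a, x, rfl⟩
    obtain ⟨k, hk⟩ := hpg (x : GQq r) x.2
    refine ⟨k + 1, Subtype.ext ?_⟩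
    show (H x) ^ p ^ (k + 1) = 1
    refine Prod.ext ?_ ?_
    · show (H x).1 ^ p ^ (k + 1) = 1
      rw [hH1, pow_succ, pow_mul, hk, one_pow]
    · show (H x).2 ^ p ^ (k + 1) = 1
      rw [hH2, pow_succ, mul_comm, pow_mul, rtk1tKum_pow, one_pow]
  obtain ⟨K, hK⟩ := IsPGroup.iff_card.1 hpgA
  have hexp : ∀ a : H.range, a ^ p ^ K = 1 := fun a => by
    rw [← hK]
    exact pow_card_eq_one'
  have hcopr : Nat.Coprime r (p ^ K) := Nat.Coprime.pow_right K ((Nat.coprime_primes hr hp).2 hrp)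
  obtain ⟨t, ht⟩ := stmtTameGen r (p ^ K) hcopr _ hV'
  obtain ⟨hgen, hfrob⟩ := ht H.range H.rangeRestrict hexp (fun x hx => by
    apply Subtype.ext
    show H x = 1
    exact hHtriv x hx)
  -- `σ` against the level generator `t`
  obtain ⟨m₀, hm₀⟩ := hgen ⟨σ, hσ⟩
  have hm₀' : H ⟨σ, hσ⟩ = H t ^ m₀ := by
    have := congrArg (fun a : H.range => (a : B × (PadicAlgCl r)ˣ)) hm₀
    simpa using this
  have hpm₀ : ¬ p ∣ m₀ := by
    rintro ⟨c, hc⟩
    have h1 : g ⟨σ, hσ⟩ = 1 := by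
      have h2 := congrArg Prod.snd hm₀'
      rw [hH2, Prod.pow_snd, hH2, hc, pow_mul, rtk1tKum_pow, one_pow] at h2
      exact h2
    exact hσϖ ((rtk1tKum_eq_one_iff r hp hrp _ hϖ0 hϖ ⟨σ, hσ⟩).1 h1)
  have hcop : Nat.Coprime m₀ (p ^ K) :=
    Nat.Coprime.pow_right K ((Nat.Prime.coprime_iff_not_dvd hp).2 hpm₀).symm
  obtain ⟨m₁, hm₁⟩ := rtk1t_pow_of_coprime hm₀ (hexp _) hcop
  -- (i)
  have hI : ∀ x ∈ inertiaQ r, ∃ m : ℕ, h x = h σ ^ m := by
    intro x hx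
    obtain ⟨m, hm⟩ := hgen ⟨x, hx⟩
    refine ⟨m₁ * m, ?_⟩
    rw [hm₁, ← pow_mul] at hm
    have h1 : (H ⟨x, hx⟩).1 = (H ⟨σ, hσ⟩).1 ^ (m₁ * m) := by
      have := congrArg (fun a : H.range => (a : B × (PadicAlgCl r)ˣ).1) hm
      simpa using this
    exact h1
  refine ⟨hI, ?_, ?_⟩
  · -- (ii)
    intro x
    obtain ⟨j, i, v, hi, hv, hx⟩ := stmtFrobGen r φ hφ V hV x
    obtain ⟨m, hm⟩ := hI i hi
    refine ⟨j, m, ?_⟩
    rw [hx, map_mul, map_mul, map_pow, hVh v hv, mul_one, hm]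
  · -- (iii)
    have hmem : φ * (t : GQq r) * φ⁻¹ ∈ inertiaQ r :=
      (wgr_inertiaQ_normal r).conj_mem _ t.2 φ
    have h1 := hfrob φ hφ hmem
    have h2 : h (φ * (t : GQq r) * φ⁻¹) = h (t : GQq r) ^ r := by
      have h2' : (H ⟨φ * (t : GQq r) * φ⁻¹, hmem⟩).1 = (H t).1 ^ r := by
        have := congrArg (fun a : H.range => (a : B × (PadicAlgCl r)ˣ).1) h1
        simpa using this
      exact h2'
    have h3 : h σ = h (t : GQq r) ^ m₀ := by
      have h3' : (H ⟨σ, hσ⟩).1 = (H t).1 ^ m₀ := by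
        have := congrArg Prod.fst hm₀'
        simpa using this
      exact h3'
    rw [h3, ← conj_pow, ← map_inv, ← map_mul, ← map_mul, h2, ← pow_mul, ← pow_mul, mul_comm]

end Fermat.Agent.RT.K1
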