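/-
K-machine, piece LOC-gen, FINAL (helper65 + helper57): `stmtLocGen : StmtLocGen`, unconditional.

`stmtLocGen_of` (RT/K1/TameGen.lean, helper65) transports the local statement to `GQ`;
`stmtLocGenLocal` (RT/K1/TameGenLoc.lean, helper57) is the local core.
-/
import Fermat.Agent.RT.K1.TameGen
import Fermat.Agent.RT.K1.TameGenLoc

set_option autoImplicit false

namespace Fermat.Agent.RT.K1

/-- LOC-gen: for primes `r ≠ p` there are `σ ∈ I_r` and a Frobenius `φ` which generate, modulo
every finite level with `p`-group inertia image, the image of the decomposition group, with the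
tame relation `φ σ φ⁻¹ = σ ^ r`. -/
theorem stmtLocGen : StmtLocGen := stmtLocGen_of stmtLocGenLocal

end Fermat.Agent.RT.K1
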