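/-
K-machine, piece K1-O (helper22): the coefficient ring `𝒪 = ℤ_p[ζ_p]`.

`k1oRing p = ℤ_p[X] / (Φ_p(X + 1))`, `π = X`, `ζ = 1 + π`, `λ = 1 - ζ`:
a complete discrete valuation ring (a domain of characteristic `0`), maximal ideal `(λ)`,
finite residue field, `ζ` a primitive `p`-th root of unity, `p ∈ (λ)`, `2` a unit (`p` odd),
square roots of elements `≡ 1 mod λ` (Hensel).
(Eisenstein ⇒ irreducible ⇒ domain; Weierstrass: `ℤ_p[X]/(f) ≅ ℤ_p[[X]]/(f)` ⇒ local, complete.)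
-/
import Mathlib
import Fermat.Agent.RT.K2c.Local

set_option autoImplicit false
set_option linter.unusedSectionVars false
set_option linter.unusedVariables false
set_option linter.style.haveILetI false

noncomputable section

namespace Fermat.Agent.RT.K1

open Polynomial IsLocalRing

variable (p : ℕ) [hp : Fact p.Prime]

/-- `f = Φ_p(X + 1)` over `ℤ_p`. -/
def k1oPoly : ℤ_[p][X] := (cyclotomic p ℤ_[p]).comp (X + 1)

theorem k1oPoly_eq_map :
    k1oPoly p = ((cyclotomic p ℤ).comp (X + 1)).map (Int.castRingHom ℤ_[p]) := by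
  rw [k1oPoly, Polynomial.map_comp, map_cyclotomic]
  simp

theorem k1oPoly_monic : (k1oPoly p).Monic := by
  have h : (k1oPoly p) = (cyclotomic p ℤ_[p]).comp (X + C 1) := by
    rw [k1oPoly, map_one]
  rw [h]
  exact (cyclotomic.monic p ℤ_[p]).comp_X_add_C 1

theorem k1oPoly_natDegree : (k1oPoly p).natDegree = p - 1 := by
  have h : (k1oPoly p) = (cyclotomic p ℤ_[p]).comp (X + C 1) := by
    rw [k1oPoly, map_one]
  rw [h, natDegree_comp, natDegree_X_add_C, mul_one, natDegree_cyclotomic,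
    Nat.totient_prime hp.out]

theorem k1oPoly_natDegree_pos : 0 < (k1oPoly p).natDegree := by
  rw [k1oPoly_natDegree]
  have := hp.out.two_le
  omega

theorem k1oPoly_coeff_zero : (k1oPoly p).coeff 0 = (p : ℤ_[p]) := by
  rw [coeff_zero_eq_eval_zero, k1oPoly, eval_comp]
  simp [eval_one_cyclotomic_prime]

theorem k1o_p_notMem_sq : (p : ℤ_[p]) ∉ maximalIdeal ℤ_[p] ^ 2 := by
  rw [PadicInt.maximalIdeal_eq_span_p, Ideal.span_singleton_pow, Ideal.mem_span_singleton]
  rintro ⟨c, hc⟩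
  have hp0 : (p : ℤ_[p]) ≠ 0 := by
    exact_mod_cast hp.out.ne_zero
  have h1 : (p : ℤ_[p]) * 1 = (p : ℤ_[p]) * ((p : ℤ_[p]) * c) := by
    rw [mul_one, ← mul_assoc, ← pow_two]
    exact hc
  have h2 := mul_left_cancel₀ hp0 h1
  have h3 : IsUnit (p : ℤ_[p]) := IsUnit.of_mul_eq_one _ h2.symm
  exact PadicInt.p_nonunit h3

theorem k1oPoly_isEisensteinAt : (k1oPoly p).IsEisensteinAt (maximalIdeal ℤ_[p]) := by
  have hZ := cyclotomic_comp_X_add_one_isEisensteinAt p
  refine ⟨?_, ?_, ?_⟩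
  · rw [(k1oPoly_monic p).leadingCoeff]
    exact fun h => (Ideal.ne_top_iff_one _).1 (maximalIdeal.isMaximal ℤ_[p]).ne_top h
  · intro n hn
    have hmonZ : ((cyclotomic p ℤ).comp (X + 1)).Monic := by
      have h : ((cyclotomic p ℤ).comp (X + 1)) = (cyclotomic p ℤ).comp (X + C 1) := by
        rw [map_one]
      rw [h]
      exact (cyclotomic.monic p ℤ).comp_X_add_C 1
    have hdeg : ((cyclotomic p ℤ).comp (X + 1)).natDegree = (k1oPoly p).natDegree := by
      rw [k1oPoly_eq_map, hmonZ.natDegree_map]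
    have h1 := hZ.mem (hdeg ▸ hn)
    rw [k1oPoly_eq_map, coeff_map]
    rw [Ideal.mem_span_singleton] at h1
    obtain ⟨c, hc⟩ := h1
    rw [hc, PadicInt.maximalIdeal_eq_span_p, Ideal.mem_span_singleton]
    exact ⟨(c : ℤ_[p]), by simp⟩
  · rw [k1oPoly_coeff_zero]
    exact k1o_p_notMem_sq p

theorem k1oPoly_irreducible : Irreducible (k1oPoly p) :=
  (k1oPoly_isEisensteinAt p).irreducible (maximalIdeal.isMaximal ℤ_[p]).isPrime
    (k1oPoly_monic p).isPrimitive (k1oPoly_natDegree_pos p)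

theorem k1oPoly_prime : Prime (k1oPoly p) := (k1oPoly_irreducible p).prime

theorem k1oPoly_isDistinguishedAt : (k1oPoly p).IsDistinguishedAt (maximalIdeal ℤ_[p]) :=
  ⟨(k1oPoly_isEisensteinAt p).isWeaklyEisensteinAt, k1oPoly_monic p⟩

/-- **The coefficient ring** `𝒪 = ℤ_p[ζ_p] = ℤ_p[X]/(Φ_p(X + 1))`. -/
abbrev k1oRing : Type := AdjoinRoot (k1oPoly p)

instance k1o_isDomain : IsDomain (k1oRing p) := AdjoinRoot.isDomain_of_prime (k1oPoly_prime p)

/-- `π = ζ - 1`, the class of `X`. -/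
def k1oPi : k1oRing p := AdjoinRoot.root (k1oPoly p)

/-- `ζ = 1 + π`. -/
def k1oZeta : k1oRing p := 1 + k1oPi p

/-- `λ = 1 - ζ`. -/
def k1oLam : k1oRing p := 1 - k1oZeta p

theorem k1oLam_eq : k1oLam p = -k1oPi p := by
  rw [k1oLam, k1oZeta]
  ring

theorem k1o_algebraMap_injective : Function.Injective (algebraMap ℤ_[p] (k1oRing p)) := by
  apply AdjoinRoot.of.injective_of_degree_ne_zero
  rw [degree_eq_natDegree (k1oPoly_monic p).ne_zero]
  exact_mod_cast (k1oPoly_natDegree_pos p).ne'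

instance k1o_charZero : CharZero (k1oRing p) :=
  charZero_of_injective_algebraMap (k1o_algebraMap_injective p)

/-- the surjection `ℤ_p[[X]] → 𝒪` (Weierstrass) -/
def k1oPhi : PowerSeries ℤ_[p] →+* k1oRing p :=
  ((k1oPoly_isDistinguishedAt p).algEquivQuotient.symm.toRingEquiv.toRingHom).comp
    (Ideal.Quotient.mk (Ideal.span {((k1oPoly p : ℤ_[p][X]) : PowerSeries ℤ_[p])}))

theorem k1oPhi_surjective : Function.Surjective (k1oPhi p) := by
  intro y
  obtain ⟨x, hx⟩ := (k1oPoly_isDistinguishedAt p).algEquivQuotient.symm.surjective y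
  obtain ⟨g, rfl⟩ := Ideal.Quotient.mk_surjective x
  exact ⟨g, hx⟩

theorem k1oPhi_C (a : ℤ_[p]) : k1oPhi p (PowerSeries.C a) = algebraMap ℤ_[p] (k1oRing p) a := by
  have h1 : (Ideal.Quotient.mk (Ideal.span {((k1oPoly p : ℤ_[p][X]) : PowerSeries ℤ_[p])}))
      (PowerSeries.C a) = algebraMap ℤ_[p] _ a := rfl
  show (k1oPoly_isDistinguishedAt p).algEquivQuotient.symm _ = _
  rw [h1, AlgEquiv.commutes]
  rfl

instance k1o_isLocalRing : IsLocalRing (k1oRing p) :=
  IsLocalRing.of_surjective' (k1oPhi p) (k1oPhi_surjective p)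

instance k1o_isNoetherianRing : IsNoetherianRing (k1oRing p) :=
  isNoetherianRing_of_surjective _ _ (k1oPhi p) (k1oPhi_surjective p)

instance k1o_isAdicComplete : IsAdicComplete (maximalIdeal (k1oRing p)) (k1oRing p) := by
  haveI : IsAdicComplete (maximalIdeal (PowerSeries ℤ_[p])) (PowerSeries ℤ_[p]) :=
    Fermat.Agent.RT.K2c.rtk2c_isAdicComplete (σ := Unit) (A := ℤ_[p])
  exact Fermat.Agent.RT.K2c.rtk2c_isAdicComplete_of_surjective (k1oPhi p) (k1oPhi_surjective p)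

instance k1o_finite_residueField : Finite (ResidueField (k1oRing p)) := by
  haveI : Finite (ResidueField ℤ_[p]) := Finite.of_equiv _ (PadicInt.residueField (p := p)).symm.toEquiv
  haveI : Finite (ResidueField (PowerSeries ℤ_[p])) :=
    Fermat.Agent.RT.K2c.rtk2c_finite_residueField (σ := Unit) (A := ℤ_[p])
  exact Fermat.Agent.RT.K2c.rtk2c_finite_residueField_of_surjective (k1oPhi p)
    (k1oPhi_surjective p)

/-- `p ∈ 𝔪`. -/
theorem k1o_p_mem : (p : k1oRing p) ∈ maximalIdeal (k1oRing p) := by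
  haveI : IsLocalHom (k1oPhi p) := (k1oPhi_surjective p).isLocalHom (k1oPhi p)
  rw [mem_maximalIdeal, mem_nonunits_iff]
  intro hu
  have h1 : k1oPhi p (PowerSeries.C (p : ℤ_[p])) = (p : k1oRing p) := by
    rw [k1oPhi_C, map_natCast]
  rw [← h1] at hu
  have h2 := isUnit_of_map_unit (k1oPhi p) _ hu
  rw [PowerSeries.isUnit_iff_constantCoeff, PowerSeries.constantCoeff_C] at h2
  exact PadicInt.p_nonunit h2

section general

variable {R A : Type*} [CommRing R] [CommRing A] [Algebra R A]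

theorem k1o_aeval_divX (x : A) (g : R[X]) :
    aeval x g = x * aeval x g.divX + algebraMap R A (g.coeff 0) := by
  conv_lhs => rw [← divX_mul_X_add g]
  rw [map_add, map_mul, aeval_X, aeval_C, mul_comm]

theorem k1o_aeval_monic (x : A) {g : R[X]} (hg : g.Monic) :
    aeval x g = x ^ g.natDegree +
      ∑ i ∈ Finset.range g.natDegree, algebraMap R A (g.coeff i) * x ^ i := by
  conv_lhs => rw [hg.as_sum]
  simp only [map_add, map_pow, aeval_X, map_sum, map_mul, aeval_C]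

end general

/-- `f(π) = 0`. -/
theorem k1o_aeval_pi : aeval (k1oPi p) (k1oPoly p) = 0 := by
  rw [k1oPi, AdjoinRoot.aeval_eq, AdjoinRoot.mk_self]

/-- `p = -π · g(π)`. -/
theorem k1o_p_eq : (p : k1oRing p) = -(k1oPi p * aeval (k1oPi p) (k1oPoly p).divX) := by
  have h := k1o_aeval_pi p
  rw [k1o_aeval_divX, k1oPoly_coeff_zero, map_natCast] at h
  exact eq_neg_of_add_eq_zero_right h

theorem k1o_pi_dvd_p : k1oPi p ∣ (p : k1oRing p) :=
  ⟨-aeval (k1oPi p) (k1oPoly p).divX, by rw [k1o_p_eq p]; ring⟩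

theorem k1o_pi_mem : k1oPi p ∈ maximalIdeal (k1oRing p) := by
  rw [mem_maximalIdeal, mem_nonunits_iff]
  intro hu
  have h2 := k1o_aeval_pi p
  have h3 : k1oPi p ^ (k1oPoly p).natDegree ∈ maximalIdeal (k1oRing p) := by
    rw [k1o_aeval_monic (k1oPi p) (k1oPoly_monic p)] at h2
    have h5 : k1oPi p ^ (k1oPoly p).natDegree = -∑ i ∈ Finset.range (k1oPoly p).natDegree,
          algebraMap ℤ_[p] (k1oRing p) ((k1oPoly p).coeff i) * k1oPi p ^ i :=
      eq_neg_of_add_eq_zero_left h2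
    rw [h5]
    apply Ideal.neg_mem_iff _ |>.mpr
    apply Ideal.sum_mem
    intro i hi
    apply Ideal.mul_mem_right
    have h6 := (k1oPoly_isEisensteinAt p).mem (Finset.mem_range.1 hi)
    rw [PadicInt.maximalIdeal_eq_span_p, Ideal.mem_span_singleton] at h6
    obtain ⟨c', hc'⟩ := h6
    rw [hc', map_mul, map_natCast]
    exact Ideal.mul_mem_right _ _ (k1o_p_mem p)
  rw [mem_maximalIdeal, mem_nonunits_iff] at h3
  exact h3 (hu.pow _)

/-- every element is a constant plus a multiple of `π` -/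
theorem k1o_decomp (x : k1oRing p) :
    ∃ (c : ℤ_[p]) (y : k1oRing p), x = algebraMap ℤ_[p] (k1oRing p) c + k1oPi p * y := by
  obtain ⟨g, rfl⟩ := AdjoinRoot.mk_surjective x
  have h := k1o_aeval_divX (AdjoinRoot.root (k1oPoly p)) g
  rw [AdjoinRoot.aeval_eq] at h
  refine ⟨g.coeff 0, aeval (AdjoinRoot.root (k1oPoly p)) g.divX, ?_⟩
  rw [h]
  unfold k1oPi
  ring

theorem k1o_const_mem {c : ℤ_[p]} {y : k1oRing p}
    (hx : algebraMap ℤ_[p] (k1oRing p) c + k1oPi p * y ∈ maximalIdeal (k1oRing p)) :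
    c ∈ maximalIdeal ℤ_[p] := by
  rw [mem_maximalIdeal, mem_nonunits_iff]
  intro hcu
  have h1 : IsUnit (algebraMap ℤ_[p] (k1oRing p) c) := hcu.map _
  have h2 : k1oPi p * y ∈ maximalIdeal (k1oRing p) := Ideal.mul_mem_right _ _ (k1o_pi_mem p)
  have h3 : algebraMap ℤ_[p] (k1oRing p) c ∈ maximalIdeal (k1oRing p) := by
    have := Ideal.sub_mem _ hx h2
    rwa [add_sub_cancel_right] at this
  rw [mem_maximalIdeal, mem_nonunits_iff] at h3
  exact h3 h1

/-- **`𝔪 = (π)`.** -/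
theorem k1o_maximalIdeal_eq_pi : maximalIdeal (k1oRing p) = Ideal.span {k1oPi p} := by
  apply le_antisymm
  · intro x hx
    obtain ⟨c, y, rfl⟩ := k1o_decomp p x
    have hc := k1o_const_mem p hx
    rw [PadicInt.maximalIdeal_eq_span_p, Ideal.mem_span_singleton] at hc
    obtain ⟨c', rfl⟩ := hc
    rw [map_mul, map_natCast]
    apply Ideal.add_mem
    · apply Ideal.mul_mem_right
      exact Ideal.mem_span_singleton.2 (k1o_pi_dvd_p p)
    · exact Ideal.mul_mem_right _ _ (Ideal.mem_span_singleton_self _)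
  · rw [Ideal.span_singleton_le_iff_mem]
    exact k1o_pi_mem p

/-- **`𝔪 = (λ)`**, `λ = 1 - ζ`. -/
theorem k1o_maximalIdeal_eq : maximalIdeal (k1oRing p) = Ideal.span {k1oLam p} := by
  rw [k1o_maximalIdeal_eq_pi, k1oLam_eq]
  exact (Ideal.span_singleton_neg _).symm

theorem k1o_pi_ne_zero : k1oPi p ≠ 0 := by
  intro h0
  have h := k1o_p_eq p
  rw [h0, zero_mul, neg_zero] at h
  have hp0 : (p : k1oRing p) ≠ 0 := by exact_mod_cast hp.out.ne_zero
  exact hp0 h

theorem k1o_not_isField : ¬ IsField (k1oRing p) := by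
  intro hF
  obtain ⟨b, hb⟩ := hF.mul_inv_cancel (k1o_pi_ne_zero p)
  have h1 := k1o_pi_mem p
  rw [mem_maximalIdeal, mem_nonunits_iff] at h1
  exact h1 (IsUnit.of_mul_eq_one _ hb)

instance k1o_isDVR : IsDiscreteValuationRing (k1oRing p) := by
  have h : Submodule.IsPrincipal (maximalIdeal (k1oRing p)) :=
    ⟨⟨k1oPi p, k1o_maximalIdeal_eq_pi p⟩⟩
  exact ((IsDiscreteValuationRing.TFAE (k1oRing p) (k1o_not_isField p)).out 0 4).mpr h

theorem k1o_primitive_of_aeval {A : Type*} [CommRing A] [IsDomain A] [Algebra ℤ_[p] A]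
    [NeZero ((p : ℕ) : A)] (x : A)
    (h : aeval x ((cyclotomic p ℤ_[p]).comp (X + 1)) = 0) : IsPrimitiveRoot (1 + x) p := by
  rw [← isRoot_cyclotomic_iff, IsRoot.def]
  rw [aeval_def, eval₂_eq_eval_map, Polynomial.map_comp, map_cyclotomic, eval_comp] at h
  simpa [add_comm] using h

/-- `ζ` is a primitive `p`-th root of unity. -/
theorem k1o_zeta_primitive : IsPrimitiveRoot (k1oZeta p) p := by
  haveI : NeZero ((p : ℕ) : k1oRing p) := ⟨by exact_mod_cast hp.out.ne_zero⟩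
  exact k1o_primitive_of_aeval p (k1oPi p) (k1o_aeval_pi p)

theorem k1o_one_eq_sub {A : Type*} [CommRing A] (n : ℕ) (hn : n % 2 = 1) :
    (1 : A) = (n : A) - 2 * ((n / 2 : ℕ) : A) := by
  have h3 : n = 2 * (n / 2) + 1 := by omega
  have h4 := congrArg (Nat.cast : ℕ → A) h3
  push_cast at h4
  rw [h4]
  ring

/-- `2` is a unit (`p` odd). -/
theorem k1o_isUnit_two (hp2 : p ≠ 2) : IsUnit (2 : k1oRing p) := by
  by_contra h2
  have h2m : (2 : k1oRing p) ∈ maximalIdeal (k1oRing p) := by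
    rw [mem_maximalIdeal, mem_nonunits_iff]; exact h2
  have hodd : p % 2 = 1 := by
    rcases hp.out.eq_two_or_odd with h | h
    · exact absurd h hp2
    · exact h
  have h1 : (1 : k1oRing p) = (p : k1oRing p) - 2 * ((p / 2 : ℕ) : k1oRing p) :=
    k1o_one_eq_sub p hodd
  have h5 : (1 : k1oRing p) ∈ maximalIdeal (k1oRing p) := by
    rw [h1]
    exact Ideal.sub_mem _ (k1o_p_mem p) (Ideal.mul_mem_right _ _ h2m)
  exact (Ideal.ne_top_iff_one _).1 (maximalIdeal.isMaximal _).ne_top h5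

/-- Square roots of elements `≡ 1 mod λ` (Hensel, `p` odd). -/
theorem k1o_exists_sqrt (hp2 : p ≠ 2) (q : k1oRing p) (hq : q - 1 ∈ maximalIdeal (k1oRing p)) :
    ∃ s t : k1oRing p, s ^ 2 = q ∧ s = 1 + k1oLam p * t := by
  have hH := HenselianRing.is_henselian (R := k1oRing p) (I := maximalIdeal (k1oRing p))
    (X ^ 2 - C q) (monic_X_pow_sub_C q (by norm_num)) 1
    (by
      simp only [eval_sub, eval_pow, eval_X, eval_C, one_pow]
      have := Ideal.neg_mem_iff _ |>.mpr hq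
      rwa [neg_sub] at this)
    (by
      simp only [derivative_sub, derivative_X_pow, derivative_C, sub_zero, eval_mul, eval_pow,
        eval_X, eval_C, Nat.cast_ofNat, Nat.add_one_sub_one, pow_one, mul_one, eval_ofNat]
      exact (k1o_isUnit_two p hp2).map _)
  obtain ⟨a, ha, ha1⟩ := hH
  rw [k1o_maximalIdeal_eq, Ideal.mem_span_singleton] at ha1
  obtain ⟨t, ht⟩ := ha1
  refine ⟨a, t, ?_, ?_⟩
  · rw [IsRoot.def] at ha
    simp only [eval_sub, eval_pow, eval_X, eval_C] at ha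
    exact sub_eq_zero.1 ha
  · rw [← ht]
    ring

instance k1o_module_finite : Module.Finite ℤ_[p] (k1oRing p) :=
  Module.Finite.of_basis (AdjoinRoot.powerBasis' (k1oPoly_monic p)).basis

instance k1o_module_free : Module.Free ℤ_[p] (k1oRing p) :=
  Module.Free.of_basis (AdjoinRoot.powerBasis' (k1oPoly_monic p)).basis

theorem k1o_finrank : Module.finrank ℤ_[p] (k1oRing p) = p - 1 := by
  rw [(AdjoinRoot.powerBasis' (k1oPoly_monic p)).finrank, AdjoinRoot.powerBasis'_dim,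
    k1oPoly_natDegree]

/-! ### the residue field is `𝔽_p` -/

theorem k1o_residue_p : ((p : ℕ) : ResidueField (k1oRing p)) = 0 := by
  have h : residue (k1oRing p) (p : k1oRing p) = 0 := (residue_eq_zero_iff _).2 (k1o_p_mem p)
  rwa [map_natCast] at h

instance k1o_charP_residue : CharP (ResidueField (k1oRing p)) p :=
  (CharP.charP_iff_prime_eq_zero hp.out).mpr (k1o_residue_p p)

theorem k1o_residue_const (c : ℤ_[p]) :
    ∃ n : ℕ, residue (k1oRing p) (algebraMap ℤ_[p] (k1oRing p) c) = (n : ResidueField (k1oRing p)) := by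
  obtain ⟨n, -, hn⟩ := PadicInt.exists_mem_range (p := p) c
  refine ⟨n, ?_⟩
  rw [PadicInt.maximalIdeal_eq_span_p, Ideal.mem_span_singleton] at hn
  obtain ⟨d, hd⟩ := hn
  have h1 : algebraMap ℤ_[p] (k1oRing p) c = (n : k1oRing p) + (p : k1oRing p) *
      algebraMap ℤ_[p] (k1oRing p) d := by
    have := congrArg (algebraMap ℤ_[p] (k1oRing p)) hd
    rw [map_sub, map_mul, map_natCast, map_natCast] at this
    rw [← this]
    ring
  rw [h1, map_add, map_mul, map_natCast, map_natCast, k1o_residue_p, zero_mul, add_zero]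

/-- **The residue field of `𝒪` is `𝔽_p`.** -/
def k1oResidueEquiv : ZMod p ≃+* ResidueField (k1oRing p) :=
  RingEquiv.ofBijective (ZMod.castHom (dvd_refl p) (ResidueField (k1oRing p)))
    ⟨RingHom.injective _, by
      intro y
      obtain ⟨x, rfl⟩ := residue_surjective y
      obtain ⟨c, z, rfl⟩ := k1o_decomp p x
      obtain ⟨n, hn⟩ := k1o_residue_const p c
      refine ⟨(n : ZMod p), ?_⟩
      rw [map_natCast]
      have h2 : residue (k1oRing p) (k1oPi p * z) = 0 :=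
        (residue_eq_zero_iff _).2 (Ideal.mul_mem_right _ _ (k1o_pi_mem p))
      show (n : ResidueField (k1oRing p)) = residue (k1oRing p) _
      rw [map_add, h2, add_zero, hn]⟩

theorem k1o_card_residue : Nat.card (ResidueField (k1oRing p)) = p := by
  rw [← Nat.card_congr (k1oResidueEquiv p).toEquiv, Nat.card_zmod]

/-! ### the data at the trivial primes -/

theorem k1o_lam_dvd_zeta_sub_one : k1oLam p ∣ k1oZeta p - 1 :=
  ⟨-1, by rw [k1oLam]; ring⟩

theorem k1o_lam_dvd_zeta_pow_sub_one (n : ℕ) : k1oLam p ∣ k1oZeta p ^ n - 1 := by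
  have h := sub_dvd_pow_sub_pow (k1oZeta p) 1 n
  rw [one_pow] at h
  exact (k1o_lam_dvd_zeta_sub_one p).trans h

theorem k1o_zeta_pow : k1oZeta p ^ p = 1 := (k1o_zeta_primitive p).pow_eq_one

theorem k1o_zeta_ne_one : k1oZeta p ≠ 1 :=
  (k1o_zeta_primitive p).ne_one hp.out.one_lt

theorem k1o_zeta_mul_pow : k1oZeta p * k1oZeta p ^ (p - 1) = 1 := by
  rw [← pow_succ', Nat.sub_add_cancel hp.out.one_le, k1o_zeta_pow]

/-- `tχ = (ζ + ζ⁻¹)/2`, `δ = (ζ - ζ⁻¹)/2`. -/
theorem k1o_exists_chi (hp2 : p ≠ 2) : ∃ tχ δ : k1oRing p,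
    tχ ^ 2 - δ ^ 2 = 1 ∧ (∃ r, tχ = 1 + k1oLam p * r) ∧ (∃ r, δ = k1oLam p * r) ∧
      tχ + δ = k1oZeta p ∧ (tχ - δ) * k1oZeta p = 1 ∧ δ ≠ 0 := by
  obtain ⟨u, hu⟩ := (k1o_isUnit_two p hp2).exists_right_inv
  set ζ := k1oZeta p with hζ
  set ζ' := k1oZeta p ^ (p - 1) with hζ'
  have hinv : ζ * ζ' = 1 := k1o_zeta_mul_pow p
  obtain ⟨a, ha⟩ := k1o_lam_dvd_zeta_sub_one p
  obtain ⟨b, hb⟩ := k1o_lam_dvd_zeta_pow_sub_one p (p - 1)
  refine ⟨u * (ζ + ζ'), u * (ζ - ζ'), ?_, ⟨u * (a + b), ?_⟩, ⟨u * (a - b), ?_⟩, ?_, ?_, ?_⟩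
  · have : (u * (ζ + ζ')) ^ 2 - (u * (ζ - ζ')) ^ 2 = (2 * u) ^ 2 * (ζ * ζ') := by ring
    rw [this, hu, hinv]
    ring
  · have h1 : ζ + ζ' = 2 + k1oLam p * (a + b) := by
      have : ζ + ζ' = 2 + ((ζ - 1) + (ζ' - 1)) := by ring
      rw [this, ha, hb]
      ring
    rw [h1]
    have : u * (2 + k1oLam p * (a + b)) = 2 * u + k1oLam p * (u * (a + b)) := by ring
    rw [this, hu]
  · have h1 : ζ - ζ' = k1oLam p * (a - b) := by
      have : ζ - ζ' = (ζ - 1) - (ζ' - 1) := by ring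
      rw [this, ha, hb]
      ring
    rw [h1]
    ring
  · have : u * (ζ + ζ') + u * (ζ - ζ') = (2 * u) * ζ := by ring
    rw [this, hu, one_mul]
  · have : (u * (ζ + ζ') - u * (ζ - ζ')) * ζ = (2 * u) * (ζ * ζ') := by ring
    rw [this, hu, hinv, one_mul]
  · intro h0
    have hu0 : u ≠ 0 := by
      intro h
      rw [h, mul_zero] at hu
      exact zero_ne_one hu
    have h1 : ζ - ζ' = 0 := by
      rcases mul_eq_zero.1 h0 with h | h
      · exact absurd h hu0
      · exact h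
    have h2 : ζ ^ 2 = 1 := by
      have : ζ ^ 2 = ζ * ζ' + ζ * (ζ - ζ') := by ring
      rw [this, hinv, h1, mul_zero, add_zero]
    have h3 := (k1o_zeta_primitive p).dvd_of_pow_eq_one 2 h2
    have h4 : p ≤ 2 := Nat.le_of_dvd (by norm_num) h3
    have h5 := hp.out.two_le
    exact hp2 (le_antisymm h4 h5)

/-- a trivial prime `r ≡ 1 mod p`, `r ≠ 1`: `q = r` is `≡ 1 mod λ`, `≠ 1`, and has a square root
`≡ 1 mod λ`. -/
theorem k1o_exists_sqrt_nat (hp2 : p ≠ 2) (r : ℕ) (hr : (p : ℤ) ∣ (r : ℤ) - 1) (hr1 : r ≠ 1) :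
    (∃ t, (r : k1oRing p) = 1 + k1oLam p * t) ∧ (r : k1oRing p) ≠ 1 ∧
      ∃ s t : k1oRing p, s ^ 2 = (r : k1oRing p) ∧ s = 1 + k1oLam p * t := by
  have hmem : (r : k1oRing p) - 1 ∈ maximalIdeal (k1oRing p) := by
    obtain ⟨c, hc⟩ := hr
    have h1 : (r : k1oRing p) - 1 = (p : k1oRing p) * (c : k1oRing p) := by
      have := congrArg (Int.cast : ℤ → k1oRing p) hc
      push_cast at this
      exact this
    rw [h1]
    exact Ideal.mul_mem_right _ _ (k1o_p_mem p)
  refine ⟨?_, ?_, k1o_exists_sqrt p hp2 _ hmem⟩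
  · rw [k1o_maximalIdeal_eq, Ideal.mem_span_singleton] at hmem
    obtain ⟨t, ht⟩ := hmem
    exact ⟨t, by rw [← ht]; ring⟩
  · intro h
    have : (r : k1oRing p) = ((1 : ℕ) : k1oRing p) := by rw [h, Nat.cast_one]
    exact hr1 (Nat.cast_injective this)

/-! ### summary -/

/-- **K1-O**: for every odd prime `p` there is a coefficient ring as wanted by the K-machine
(`RT/PlanTW.lean`): a complete discrete valuation ring `O` of characteristic `0` with finite
residue field of `p` elements, uniformiser `λ = 1 - ζ`, `ζ` a primitive `p`-th root of unity,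
`2` a unit, and square roots of the integers `≡ 1 mod p`. -/
def StmtCoeff : Prop :=
  ∀ (p : ℕ) [Fact p.Prime], p ≠ 2 →
    ∃ (O : Type) (_ : CommRing O) (_ : IsDomain O) (_ : IsDiscreteValuationRing O)
      (_ : IsAdicComplete (maximalIdeal O) O) (_ : Finite (ResidueField O)) (_ : CharZero O)
      (lam ζ : O),
      maximalIdeal O = Ideal.span {lam} ∧ lam = 1 - ζ ∧ IsPrimitiveRoot ζ p ∧
        (p : O) ∈ maximalIdeal O ∧ IsUnit (2 : O) ∧ Nat.card (ResidueField O) = p ∧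
        (∀ q : O, q - 1 ∈ maximalIdeal O → ∃ s t : O, s ^ 2 = q ∧ s = 1 + lam * t) ∧
        (∃ tχ δ : O, tχ ^ 2 - δ ^ 2 = 1 ∧ (∃ r, tχ = 1 + lam * r) ∧ (∃ r, δ = lam * r) ∧
          tχ + δ = ζ ∧ (tχ - δ) * ζ = 1 ∧ δ ≠ 0)

theorem stmtCoeff : StmtCoeff := by
  intro p _ hp2
  exact ⟨k1oRing p, inferInstance, inferInstance, inferInstance, inferInstance, inferInstance,
    inferInstance, k1oLam p, k1oZeta p, k1o_maximalIdeal_eq p, rfl, k1o_zeta_primitive p,
    k1o_p_mem p, k1o_isUnit_two p hp2, k1o_card_residue p, k1o_exists_sqrt p hp2,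
    k1o_exists_chi p hp2⟩

end Fermat.Agent.RT.K1

end
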