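/-
K-machine, piece K1-O2 (helper97): a coefficient ring with residue field `𝔽_{p²}`.

`𝒪₂ = 𝒪[Y]/(Y² - u)`, `𝒪 = ℤ_p[ζ_p]` (`k1oRing p`, helper22), `u` a non-square modulo `p`:
a complete discrete valuation ring of characteristic `0`, unramified over `𝒪`
(uniformiser `λ = 1 - ζ`), residue field of order `p²`, in which every monic quadratic
polynomial over `𝔽_p` splits.

General part: for a discrete valuation ring `R` and a monic `g ∈ R[X]` with irreducible
reduction, `R[X]/(g)` is a discrete valuation ring with maximal ideal `𝔪_R · R[X]/(g)`,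
complete if `R` is.
-/
import Mathlib
import Fermat.Agent.RT.K1.Coeff

set_option autoImplicit false
set_option linter.unusedSectionVars false
set_option linter.unusedVariables false
set_option linter.style.haveILetI false

noncomputable section

namespace Fermat.Agent.RT.K1

open Polynomial IsLocalRing

/-! ### Finite free modules over a complete ring are complete -/

section complete

variable {R M ι : Type*} [CommRing R] [AddCommGroup M] [Module R M]

theorem k1o2_repr_mem (b : Module.Basis ι R M) (J : Ideal R) {x : M}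
    (hx : x ∈ (J • ⊤ : Submodule R M)) (i : ι) : b.repr x i ∈ J := by
  refine Submodule.smul_induction_on hx ?_ ?_
  · intro r hr m _
    rw [map_smul, Finsupp.smul_apply, smul_eq_mul]
    exact J.mul_mem_right _ hr
  · intro x y hx hy
    rw [map_add, Finsupp.add_apply]
    exact J.add_mem hx hy

theorem k1o2_mem_smul_top_of_repr [Fintype ι] (b : Module.Basis ι R M) (J : Ideal R) {x : M}
    (hx : ∀ i, b.repr x i ∈ J) : x ∈ (J • ⊤ : Submodule R M) := by
  rw [← b.sum_repr x]
  exact Submodule.sum_mem _ fun i _ => Submodule.smul_mem_smul (hx i) Submodule.mem_top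

theorem k1o2_isHausdorff_of_basis (I : Ideal R) [IsHausdorff I R] (b : Module.Basis ι R M) :
    IsHausdorff I M := by
  refine ⟨fun x hx => ?_⟩
  apply b.repr.injective
  ext i
  rw [map_zero, Finsupp.zero_apply]
  apply IsHausdorff.haus' (I := I)
  intro n
  rw [SModEq.zero]
  have h1 := hx n
  rw [SModEq.zero] at h1
  have h2 := k1o2_repr_mem b (I ^ n) h1 i
  rw [smul_eq_mul, Ideal.mul_top]
  exact h2

theorem k1o2_isPrecomplete_of_basis [Fintype ι] (I : Ideal R) [IsPrecomplete I R]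
    (b : Module.Basis ι R M) : IsPrecomplete I M := by
  refine ⟨fun f hf => ?_⟩
  have hc : ∀ i, ∃ L : R, ∀ n, b.repr (f n) i ≡ L [SMOD (I ^ n • ⊤ : Submodule R R)] := by
    intro i
    apply IsPrecomplete.prec' (I := I)
    intro m n hmn
    rw [SModEq.sub_mem]
    have h1 := hf hmn
    rw [SModEq.sub_mem] at h1
    have h2 := k1o2_repr_mem b (I ^ m) h1 i
    rw [map_sub, Finsupp.sub_apply] at h2
    rw [smul_eq_mul, Ideal.mul_top]
    exact h2
  choose L hL using hc
  refine ⟨∑ i, L i • b i, fun n => ?_⟩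
  rw [SModEq.sub_mem]
  apply k1o2_mem_smul_top_of_repr b
  intro i
  have h3 := hL i n
  rw [SModEq.sub_mem, smul_eq_mul, Ideal.mul_top] at h3
  rw [map_sub, Finsupp.sub_apply, b.repr_sum_self]
  exact h3

theorem k1o2_isAdicComplete_of_basis [Fintype ι] (I : Ideal R) [IsAdicComplete I R]
    (b : Module.Basis ι R M) : IsAdicComplete I M :=
  { toIsHausdorff := k1o2_isHausdorff_of_basis I b
    toIsPrecomplete := k1o2_isPrecomplete_of_basis I b }

end complete

/-! ### Quadratic polynomials over `𝔽_p` split in a field with `p²` elements -/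

section split

theorem k1o2_card_adjoinRoot {k : Type*} [Field k] [Finite k] {f : k[X]} (hf : f.Monic) :
    Nat.card (AdjoinRoot f) = Nat.card k ^ f.natDegree := by
  have e := (AdjoinRoot.powerBasis' hf).basis.equivFun
  rw [Nat.card_congr e.toEquiv, Nat.card_fun, Nat.card_fin, AdjoinRoot.powerBasis'_dim]

theorem k1o2_finite_adjoinRoot {k : Type*} [Field k] [Finite k] {f : k[X]} (hf : f.Monic) :
    Finite (AdjoinRoot f) := by
  have e := (AdjoinRoot.powerBasis' hf).basis.equivFun
  exact Finite.of_equiv _ e.toEquiv.symm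

theorem k1o2_split_of_root {K : Type*} [Field K] {f : K[X]} (hf : f.Monic)
    (hd : f.natDegree = 2) {α : K} (hα : f.IsRoot α) : ∃ β : K, f = (X - C α) * (X - C β) := by
  have h1 : (X - C α) * (f /ₘ (X - C α)) = f := mul_divByMonic_eq_iff_isRoot.2 hα
  have hq : (f /ₘ (X - C α)).Monic := by
    have h2 : ((X - C α) * (f /ₘ (X - C α))).Monic := by rw [h1]; exact hf
    exact (monic_X_sub_C α).of_mul_monic_left h2
  have hqd : (f /ₘ (X - C α)).natDegree = 1 := by
    rw [natDegree_divByMonic f (monic_X_sub_C α), hd, natDegree_X_sub_C]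
  have h2 := hq.eq_X_add_C hqd
  refine ⟨-(f /ₘ (X - C α)).coeff 0, ?_⟩
  rw [map_neg, sub_neg_eq_add, ← h2, h1]

theorem k1o2_exists_root (p : ℕ) [Fact p.Prime] {K : Type*} [Field K] [Finite K]
    (hK : Nat.card K = p ^ 2) (φ : ZMod p →+* K) (f : (ZMod p)[X]) (hf : f.Monic)
    (hd : f.natDegree = 2) : ∃ α : K, (f.map φ).IsRoot α := by
  by_cases hroot : ∃ a, f.IsRoot a
  · obtain ⟨a, ha⟩ := hroot
    exact ⟨φ a, ha.map⟩
  · have hirr : Irreducible f := by
      rw [hf.irreducible_iff_roots_eq_zero_of_degree_le_three (by omega) (by omega)]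
      apply Multiset.eq_zero_of_forall_notMem
      intro a ha
      exact hroot ⟨a, (mem_roots hf.ne_zero).1 ha⟩
    haveI : Fact (Irreducible f) := ⟨hirr⟩
    haveI : CharP K p := charP_of_injective_ringHom φ.injective p
    letI : Algebra (ZMod p) K := ZMod.algebra K p
    haveI : Finite (AdjoinRoot f) := k1o2_finite_adjoinRoot hf
    letI : Fintype K := Fintype.ofFinite K
    letI : Fintype (AdjoinRoot f) := Fintype.ofFinite _
    have hcard : Fintype.card K = Fintype.card (AdjoinRoot f) := by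
      rw [Fintype.card_eq_nat_card, Fintype.card_eq_nat_card, hK, k1o2_card_adjoinRoot hf, hd,
        Nat.card_zmod]
    have e : K ≃ₐ[ZMod p] AdjoinRoot f := FiniteField.algEquivOfCardEq p hcard
    refine ⟨e.symm (AdjoinRoot.root f), ?_⟩
    have h1 : aeval (e.symm (AdjoinRoot.root f)) f = 0 := by
      rw [aeval_algEquiv, AlgHom.comp_apply, AdjoinRoot.aeval_eq, AdjoinRoot.mk_self]
      exact map_zero _
    have h2 : φ = algebraMap (ZMod p) K := Subsingleton.elim _ _
    rw [IsRoot.def, h2, eval_map_algebraMap]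
    exact h1

/-- **Quadratic polynomials over `𝔽_p` split in a field with `p²` elements.** -/
theorem k1o2_split_quadratic (p : ℕ) [Fact p.Prime] {K : Type*} [Field K] [Finite K]
    (hK : Nat.card K = p ^ 2) (φ : ZMod p →+* K) (f : (ZMod p)[X]) (hf : f.Monic)
    (hd : f.natDegree = 2) : ∃ α β : K, f.map φ = (X - C α) * (X - C β) := by
  obtain ⟨α, hα⟩ := k1o2_exists_root p hK φ f hf hd
  have hd' : (f.map φ).natDegree = 2 := by rw [hf.natDegree_map, hd]
  obtain ⟨β, hβ⟩ := k1o2_split_of_root (hf.map φ) hd' hα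
  exact ⟨α, β, hβ⟩

/-- The characteristic polynomial of a `2 × 2` matrix over `𝔽_p` splits in a field with `p²`
elements. -/
theorem k1o2_split_charpoly (p : ℕ) [Fact p.Prime] {K : Type*} [Field K] [Finite K]
    (hK : Nat.card K = p ^ 2) (φ : ZMod p →+* K) (A : Matrix (Fin 2) (Fin 2) (ZMod p)) :
    ∃ α β : K, (A.map φ).charpoly = (X - C α) * (X - C β) := by
  have h1 : (A.map φ).charpoly = A.charpoly.map φ := by
    have := Matrix.charpoly_map A φ
    simpa using this
  rw [h1]
  exact k1o2_split_quadratic p hK φ _ (Matrix.charpoly_monic A)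
    (by rw [Matrix.charpoly_natDegree_eq_dim]; rfl)

/-- The characteristic polynomial of the base change to a field with `p²` elements of an
endomorphism of a `2`-dimensional `𝔽_p`-vector space splits. -/
theorem k1o2_split_linearMap_charpoly (p : ℕ) [Fact p.Prime] {K : Type*} [Field K] [Finite K]
    [Algebra (ZMod p) K] (hK : Nat.card K = p ^ 2) {V : Type*} [AddCommGroup V]
    [Module (ZMod p) V] [Module.Finite (ZMod p) V] (hV : Module.finrank (ZMod p) V = 2)
    (f : Module.End (ZMod p) V) :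
    ∃ α β : K, LinearMap.charpoly (f.baseChange K) = (X - C α) * (X - C β) := by
  rw [LinearMap.charpoly_baseChange]
  exact k1o2_split_quadratic p hK (algebraMap (ZMod p) K) _ (LinearMap.charpoly_monic f)
    (by rw [LinearMap.charpoly_natDegree, hV])

end split

/-! ### General part: unramified extensions `R[X]/(g)` of a discrete valuation ring -/

section unram

variable {R : Type*} [CommRing R] [IsDomain R] [IsDiscreteValuationRing R] {g : R[X]}

theorem k1o2_irreducible (hg : g.Monic) (hirr : Irreducible (g.map (residue R))) :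
    Irreducible g :=
  hg.irreducible_of_irreducible_map (residue R) g hirr

theorem k1o2_prime (hg : g.Monic) (hirr : Irreducible (g.map (residue R))) : Prime g :=
  (k1o2_irreducible hg hirr).prime

theorem k1o2_isDomain (hg : g.Monic) (hirr : Irreducible (g.map (residue R))) :
    IsDomain (AdjoinRoot g) :=
  AdjoinRoot.isDomain_of_prime (k1o2_prime hg hirr)

theorem k1o2_natDegree_pos (hirr : Irreducible (g.map (residue R))) : 0 < g.natDegree := by
  have h1 := hirr.natDegree_pos
  exact lt_of_lt_of_le h1 natDegree_map_le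

theorem k1o2_of_injective (hg : g.Monic) (hirr : Irreducible (g.map (residue R))) :
    Function.Injective (AdjoinRoot.of g) := by
  apply AdjoinRoot.of.injective_of_degree_ne_zero
  rw [degree_eq_natDegree hg.ne_zero]
  exact_mod_cast (k1o2_natDegree_pos hirr).ne'

theorem k1o2_module_finite (hg : g.Monic) : Module.Finite R (AdjoinRoot g) :=
  Module.Finite.of_basis (AdjoinRoot.powerBasis' hg).basis

theorem k1o2_module_free (hg : g.Monic) : Module.Free R (AdjoinRoot g) :=
  Module.Free.of_basis (AdjoinRoot.powerBasis' hg).basis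

theorem k1o2_isNoetherianRing (hg : g.Monic) : IsNoetherianRing (AdjoinRoot g) := by
  haveI := k1o2_module_finite hg
  exact IsNoetherianRing.of_finite R (AdjoinRoot g)

/-- the ideal `𝔪_R · R[X]/(g)` -/
def k1o2M (g : R[X]) : Ideal (AdjoinRoot g) := (maximalIdeal R).map (AdjoinRoot.of g)

theorem k1o2M_isMaximal (hirr : Irreducible (g.map (residue R))) : (k1o2M g).IsMaximal := by
  apply Ideal.Quotient.maximal_of_isField
  have e := AdjoinRoot.quotAdjoinRootEquivQuotPolynomialQuot (maximalIdeal R) g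
  have hmax : (Ideal.span {g.map (residue R)} : Ideal (ResidueField R)[X]).IsMaximal :=
    PrincipalIdealRing.isMaximal_of_irreducible hirr
  have hF : IsField ((ResidueField R)[X] ⧸
      (Ideal.span {g.map (residue R)} : Ideal (ResidueField R)[X])) :=
    (Ideal.Quotient.maximal_ideal_iff_isField_quotient _).1 hmax
  exact MulEquiv.isField hF e.toMulEquiv

theorem k1o2M_unique (hg : g.Monic) (hirr : Irreducible (g.map (residue R)))
    (𝔫 : Ideal (AdjoinRoot g)) (h𝔫 : 𝔫.IsMaximal) : 𝔫 = k1o2M g := by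
  haveI := k1o2_module_finite hg
  haveI : Algebra.IsIntegral R (AdjoinRoot g) := Algebra.IsIntegral.of_finite R (AdjoinRoot g)
  have h1 : (𝔫.comap (algebraMap R (AdjoinRoot g))).IsMaximal :=
    Ideal.isMaximal_comap_of_isIntegral_of_isMaximal 𝔫
  have h2 : 𝔫.comap (algebraMap R (AdjoinRoot g)) = maximalIdeal R := eq_maximalIdeal h1
  have h3 : k1o2M g ≤ 𝔫 := by
    rw [k1o2M, Ideal.map_le_iff_le_comap]
    exact h2.ge
  exact ((k1o2M_isMaximal hirr).eq_of_le h𝔫.ne_top h3).symm

theorem k1o2_isLocalRing (hg : g.Monic) (hirr : Irreducible (g.map (residue R))) :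
    IsLocalRing (AdjoinRoot g) :=
  IsLocalRing.of_unique_max_ideal
    ⟨k1o2M g, k1o2M_isMaximal hirr, fun 𝔫 h𝔫 => k1o2M_unique hg hirr 𝔫 h𝔫⟩


theorem k1o2_maximalIdeal_eq_M [IsLocalRing (AdjoinRoot g)]
    (hirr : Irreducible (g.map (residue R))) : maximalIdeal (AdjoinRoot g) = k1o2M g :=
  (eq_maximalIdeal (k1o2M_isMaximal hirr)).symm

/-- a uniformiser of `R` generates the maximal ideal of `R[X]/(g)` -/
theorem k1o2_maximalIdeal_eq_span [IsLocalRing (AdjoinRoot g)]
    (hirr : Irreducible (g.map (residue R))) {ϖ : R} (hϖ : maximalIdeal R = Ideal.span {ϖ}) :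
    maximalIdeal (AdjoinRoot g) = Ideal.span {AdjoinRoot.of g ϖ} := by
  rw [k1o2_maximalIdeal_eq_M hirr, k1o2M, hϖ, Ideal.map_span, Set.image_singleton]

theorem k1o2_not_isField [IsLocalRing (AdjoinRoot g)] (hg : g.Monic)
    (hirr : Irreducible (g.map (residue R))) : ¬ IsField (AdjoinRoot g) := by
  obtain ⟨ϖ, hϖ⟩ := IsDiscreteValuationRing.exists_irreducible R
  have hmax := k1o2_maximalIdeal_eq_span hirr hϖ.maximalIdeal_eq
  have hne : AdjoinRoot.of g ϖ ≠ 0 := by
    intro h0
    exact hϖ.ne_zero (k1o2_of_injective hg hirr (h0.trans (map_zero _).symm))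
  have hmem : AdjoinRoot.of g ϖ ∈ maximalIdeal (AdjoinRoot g) := by
    rw [hmax]
    exact Ideal.mem_span_singleton_self _
  intro hF
  obtain ⟨b, hb⟩ := hF.mul_inv_cancel hne
  rw [mem_maximalIdeal, mem_nonunits_iff] at hmem
  exact hmem (IsUnit.of_mul_eq_one _ hb)

theorem k1o2_isDVR [IsDomain (AdjoinRoot g)] [IsLocalRing (AdjoinRoot g)]
    [IsNoetherianRing (AdjoinRoot g)] (hg : g.Monic)
    (hirr : Irreducible (g.map (residue R))) : IsDiscreteValuationRing (AdjoinRoot g) := by
  obtain ⟨ϖ, hϖ⟩ := IsDiscreteValuationRing.exists_irreducible R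
  have h : Submodule.IsPrincipal (maximalIdeal (AdjoinRoot g)) :=
    ⟨⟨AdjoinRoot.of g ϖ, k1o2_maximalIdeal_eq_span hirr hϖ.maximalIdeal_eq⟩⟩
  exact ((IsDiscreteValuationRing.TFAE (AdjoinRoot g) (k1o2_not_isField hg hirr)).out 0 4).mpr h

/-- the residue field of `R[X]/(g)` is `k[X]/(ḡ)` -/
def k1o2ResidueEquiv [IsLocalRing (AdjoinRoot g)] (hirr : Irreducible (g.map (residue R))) :
    ResidueField (AdjoinRoot g) ≃+* AdjoinRoot (g.map (residue R)) :=
  (Ideal.quotEquivOfEq (k1o2_maximalIdeal_eq_M hirr)).trans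
    (AdjoinRoot.quotAdjoinRootEquivQuotPolynomialQuot (maximalIdeal R) g)

theorem k1o2_card_residue [IsLocalRing (AdjoinRoot g)] [Finite (ResidueField R)] (hg : g.Monic)
    (hirr : Irreducible (g.map (residue R))) :
    Nat.card (ResidueField (AdjoinRoot g)) = Nat.card (ResidueField R) ^ g.natDegree := by
  rw [Nat.card_congr (k1o2ResidueEquiv hirr).toEquiv, k1o2_card_adjoinRoot (hg.map _),
    hg.natDegree_map]

theorem k1o2_finite_residue [IsLocalRing (AdjoinRoot g)] [Finite (ResidueField R)] (hg : g.Monic)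
    (hirr : Irreducible (g.map (residue R))) : Finite (ResidueField (AdjoinRoot g)) := by
  haveI := k1o2_finite_adjoinRoot (hg.map (residue R))
  exact Finite.of_equiv _ (k1o2ResidueEquiv hirr).toEquiv.symm


theorem k1o2_isAdicComplete [IsLocalRing (AdjoinRoot g)] [IsAdicComplete (maximalIdeal R) R]
    (hg : g.Monic) (hirr : Irreducible (g.map (residue R))) :
    IsAdicComplete (maximalIdeal (AdjoinRoot g)) (AdjoinRoot g) := by
  have h1 : IsAdicComplete (maximalIdeal R) (AdjoinRoot g) :=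
    k1o2_isAdicComplete_of_basis (maximalIdeal R) (AdjoinRoot.powerBasis' hg).basis
  rw [k1o2_maximalIdeal_eq_M hirr, k1o2M]
  exact (IsAdicComplete.map_algebraMap_iff (I := maximalIdeal R) (S := AdjoinRoot g)
    (M := AdjoinRoot g)).2 h1

end unram

/-! ### The ring `𝒪₂ = ℤ_p[ζ_p][Y]/(Y² - u)` -/

section concrete

variable (p : ℕ) [hp : Fact p.Prime]

theorem k1o2_exists_nonsquare (hp2 : p ≠ 2) : ∃ n : ℕ, ¬ IsSquare (n : ZMod p) := by
  have h1 : ringChar (ZMod p) ≠ 2 := by
    rw [ZMod.ringChar_zmod_n]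
    exact hp2
  obtain ⟨a, ha⟩ := FiniteField.exists_nonsquare h1
  refine ⟨a.val, ?_⟩
  rwa [ZMod.natCast_zmod_val]

/-- a natural number `u` which is not a square modulo `p` (`p` odd) -/
def k1o2U : ℕ := Classical.epsilon fun n : ℕ => ¬ IsSquare (n : ZMod p)

theorem k1o2U_spec (hp2 : p ≠ 2) : ¬ IsSquare (k1o2U p : ZMod p) :=
  Classical.epsilon_spec (k1o2_exists_nonsquare p hp2)

/-- `g = Y² - u` over `𝒪 = ℤ_p[ζ_p]` -/
def k1o2Poly : (k1oRing p)[X] := X ^ 2 - C (k1o2U p : k1oRing p)

theorem k1o2Poly_monic : (k1o2Poly p).Monic := monic_X_pow_sub_C _ (by norm_num)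

theorem k1o2Poly_natDegree : (k1o2Poly p).natDegree = 2 := natDegree_X_pow_sub_C

theorem k1o2Poly_map :
    (k1o2Poly p).map (residue (k1oRing p)) = X ^ 2 - C (k1o2U p : ResidueField (k1oRing p)) := by
  rw [k1o2Poly, Polynomial.map_sub, Polynomial.map_pow, map_X, map_C, map_natCast]

theorem k1o2Poly_irreducible (hp2 : p ≠ 2) :
    Irreducible ((k1o2Poly p).map (residue (k1oRing p))) := by
  have hm : ((k1o2Poly p).map (residue (k1oRing p))).Monic := (k1o2Poly_monic p).map _
  have hd : ((k1o2Poly p).map (residue (k1oRing p))).natDegree = 2 := by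
    rw [(k1o2Poly_monic p).natDegree_map, k1o2Poly_natDegree]
  rw [hm.irreducible_iff_roots_eq_zero_of_degree_le_three (by omega) (by omega)]
  apply Multiset.eq_zero_of_forall_notMem
  intro a ha
  have h1 := (mem_roots hm.ne_zero).1 ha
  rw [IsRoot.def, k1o2Poly_map, eval_sub, eval_pow, eval_X, eval_C, sub_eq_zero] at h1
  apply k1o2U_spec p hp2
  refine ⟨(k1oResidueEquiv p).symm a, ?_⟩
  apply (k1oResidueEquiv p).injective
  rw [map_mul, RingEquiv.apply_symm_apply, map_natCast, ← h1, pow_two]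

end concrete

section instances

variable (p : ℕ) [hp : Fact p.Prime] [hp2 : Fact (p ≠ 2)]

/-- **The coefficient ring** `𝒪₂ = ℤ_p[ζ_p][Y]/(Y² - u)`, `u` a non-square modulo `p`. -/
abbrev k1o2Ring : Type := AdjoinRoot (k1o2Poly p)

instance k1o2_ring_isDomain : IsDomain (k1o2Ring p) :=
  k1o2_isDomain (k1o2Poly_monic p) (k1o2Poly_irreducible p hp2.out)

instance k1o2_ring_isLocalRing : IsLocalRing (k1o2Ring p) :=
  k1o2_isLocalRing (k1o2Poly_monic p) (k1o2Poly_irreducible p hp2.out)

instance k1o2_ring_isNoetherianRing : IsNoetherianRing (k1o2Ring p) :=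
  k1o2_isNoetherianRing (k1o2Poly_monic p)

instance k1o2_ring_isDVR : IsDiscreteValuationRing (k1o2Ring p) :=
  k1o2_isDVR (k1o2Poly_monic p) (k1o2Poly_irreducible p hp2.out)

instance k1o2_ring_isAdicComplete :
    IsAdicComplete (maximalIdeal (k1o2Ring p)) (k1o2Ring p) :=
  k1o2_isAdicComplete (k1o2Poly_monic p) (k1o2Poly_irreducible p hp2.out)

instance k1o2_ring_finite_residueField : Finite (ResidueField (k1o2Ring p)) :=
  k1o2_finite_residue (k1o2Poly_monic p) (k1o2Poly_irreducible p hp2.out)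

theorem k1o2_algebraMap_injective :
    Function.Injective (algebraMap (k1oRing p) (k1o2Ring p)) :=
  k1o2_of_injective (k1o2Poly_monic p) (k1o2Poly_irreducible p hp2.out)

instance k1o2_ring_charZero : CharZero (k1o2Ring p) :=
  charZero_of_injective_algebraMap (k1o2_algebraMap_injective p)

instance k1o2_ring_module_finite : Module.Finite (k1oRing p) (k1o2Ring p) :=
  k1o2_module_finite (k1o2Poly_monic p)

instance k1o2_ring_module_free : Module.Free (k1oRing p) (k1o2Ring p) :=
  k1o2_module_free (k1o2Poly_monic p)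

/-- `λ = 1 - ζ` in `𝒪₂` -/
def k1o2Lam : k1o2Ring p := algebraMap (k1oRing p) (k1o2Ring p) (k1oLam p)

/-- `ζ` in `𝒪₂` -/
def k1o2Zeta : k1o2Ring p := algebraMap (k1oRing p) (k1o2Ring p) (k1oZeta p)

/-- the square root of `u` in `𝒪₂` -/
def k1o2Root : k1o2Ring p := AdjoinRoot.root (k1o2Poly p)

theorem k1o2Root_sq : k1o2Root p ^ 2 = (k1o2U p : k1o2Ring p) := by
  have h := AdjoinRoot.eval₂_root (k1o2Poly p)
  rw [k1o2Poly, eval₂_sub, eval₂_pow, eval₂_X, eval₂_C, map_natCast, sub_eq_zero] at h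
  exact h

theorem k1o2Lam_eq : k1o2Lam p = 1 - k1o2Zeta p := by
  rw [k1o2Lam, k1o2Zeta, k1oLam, map_sub, map_one]

/-- **`𝔪 = (λ)`**: `𝒪₂` is unramified over `𝒪`. -/
theorem k1o2_maximalIdeal_eq : maximalIdeal (k1o2Ring p) = Ideal.span {k1o2Lam p} :=
  k1o2_maximalIdeal_eq_span (k1o2Poly_irreducible p hp2.out) (k1o_maximalIdeal_eq p)

theorem k1o2_maximalIdeal_eq_map :
    maximalIdeal (k1o2Ring p) =
      (maximalIdeal (k1oRing p)).map (algebraMap (k1oRing p) (k1o2Ring p)) :=
  k1o2_maximalIdeal_eq_M (k1o2Poly_irreducible p hp2.out)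

theorem k1o2_zeta_primitive : IsPrimitiveRoot (k1o2Zeta p) p :=
  (k1o_zeta_primitive p).map_of_injective (k1o2_algebraMap_injective p)

theorem k1o2_p_mem : (p : k1o2Ring p) ∈ maximalIdeal (k1o2Ring p) := by
  rw [k1o2_maximalIdeal_eq_map]
  have h := Ideal.mem_map_of_mem (algebraMap (k1oRing p) (k1o2Ring p)) (k1o_p_mem p)
  rwa [map_natCast] at h

theorem k1o2_isUnit_two : IsUnit (2 : k1o2Ring p) := by
  have h := (k1o_isUnit_two p hp2.out).map (algebraMap (k1oRing p) (k1o2Ring p))
  rwa [map_ofNat] at h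

/-- **The residue field of `𝒪₂` has `p²` elements.** -/
theorem k1o2_card_residueField : Nat.card (ResidueField (k1o2Ring p)) = p ^ 2 := by
  rw [k1o2_card_residue (k1o2Poly_monic p) (k1o2Poly_irreducible p hp2.out), k1o_card_residue,
    k1o2Poly_natDegree]

theorem k1o2_residue_p : ((p : ℕ) : ResidueField (k1o2Ring p)) = 0 := by
  have h : residue (k1o2Ring p) (p : k1o2Ring p) = 0 := (residue_eq_zero_iff _).2 (k1o2_p_mem p)
  rwa [map_natCast] at h

instance k1o2_charP_residue : CharP (ResidueField (k1o2Ring p)) p :=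
  (CharP.charP_iff_prime_eq_zero hp.out).mpr (k1o2_residue_p p)

/-- **Every monic quadratic polynomial over `𝔽_p` splits in the residue field of `𝒪₂`.** -/
theorem k1o2_residue_split (φ : ZMod p →+* ResidueField (k1o2Ring p)) (f : (ZMod p)[X])
    (hf : f.Monic) (hd : f.natDegree = 2) :
    ∃ α β : ResidueField (k1o2Ring p), f.map φ = (X - C α) * (X - C β) :=
  k1o2_split_quadratic p (k1o2_card_residueField p) φ f hf hd

/-- Square roots of elements `≡ 1 mod λ` (Hensel). -/
theorem k1o2_exists_sqrt (q : k1o2Ring p) (hq : q - 1 ∈ maximalIdeal (k1o2Ring p)) :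
    ∃ s t : k1o2Ring p, s ^ 2 = q ∧ s = 1 + k1o2Lam p * t := by
  have hH := HenselianRing.is_henselian (R := k1o2Ring p) (I := maximalIdeal (k1o2Ring p))
    (X ^ 2 - C q) (monic_X_pow_sub_C q (by norm_num)) 1
    (by
      simp only [eval_sub, eval_pow, eval_X, eval_C, one_pow]
      have := Ideal.neg_mem_iff _ |>.mpr hq
      rwa [neg_sub] at this)
    (by
      simp only [derivative_sub, derivative_X_pow, derivative_C, sub_zero, eval_mul,
        eval_X, eval_C, Nat.cast_ofNat, Nat.add_one_sub_one, pow_one, mul_one]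
      exact (k1o2_isUnit_two p).map _)
  obtain ⟨a, ha, ha1⟩ := hH
  rw [k1o2_maximalIdeal_eq, Ideal.mem_span_singleton] at ha1
  obtain ⟨t, ht⟩ := ha1
  refine ⟨a, t, ?_, ?_⟩
  · rw [IsRoot.def] at ha
    simp only [eval_sub, eval_pow, eval_X, eval_C] at ha
    exact sub_eq_zero.1 ha
  · rw [← ht]
    ring

/-- `tχ = (ζ + ζ⁻¹)/2`, `δ = (ζ - ζ⁻¹)/2` in `𝒪₂`. -/
theorem k1o2_exists_chi : ∃ tχ δ : k1o2Ring p,
    tχ ^ 2 - δ ^ 2 = 1 ∧ (∃ r, tχ = 1 + k1o2Lam p * r) ∧ (∃ r, δ = k1o2Lam p * r) ∧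
      tχ + δ = k1o2Zeta p ∧ (tχ - δ) * k1o2Zeta p = 1 ∧ δ ≠ 0 := by
  obtain ⟨tχ, δ, h1, ⟨r1, h2⟩, ⟨r2, h3⟩, h4, h5, h6⟩ := k1o_exists_chi p hp2.out
  set ι := algebraMap (k1oRing p) (k1o2Ring p) with hι
  refine ⟨ι tχ, ι δ, ?_, ⟨ι r1, ?_⟩, ⟨ι r2, ?_⟩, ?_, ?_, ?_⟩
  · rw [← map_pow, ← map_pow, ← map_sub, h1, map_one]
  · rw [h2, map_add, map_one, map_mul]
    rfl
  · rw [h3, map_mul]
    rfl
  · rw [← map_add, h4]
    rfl
  · rw [k1o2Zeta, ← map_sub, ← map_mul, h5, map_one]
  · intro h0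
    exact h6 (k1o2_algebraMap_injective p (h0.trans (map_zero _).symm))

/-- a trivial prime `r ≡ 1 mod p`, `r ≠ 1`: `q = r` is `≡ 1 mod λ`, `≠ 1`, and has a square root
`≡ 1 mod λ`. -/
theorem k1o2_exists_sqrt_nat (r : ℕ) (hr : (p : ℤ) ∣ (r : ℤ) - 1) (hr1 : r ≠ 1) :
    (∃ t, (r : k1o2Ring p) = 1 + k1o2Lam p * t) ∧ (r : k1o2Ring p) ≠ 1 ∧
      ∃ s t : k1o2Ring p, s ^ 2 = (r : k1o2Ring p) ∧ s = 1 + k1o2Lam p * t := by
  have hmem : (r : k1o2Ring p) - 1 ∈ maximalIdeal (k1o2Ring p) := by
    obtain ⟨c, hc⟩ := hr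
    have h1 : (r : k1o2Ring p) - 1 = (p : k1o2Ring p) * (c : k1o2Ring p) := by
      have := congrArg (Int.cast : ℤ → k1o2Ring p) hc
      push_cast at this
      exact this
    rw [h1]
    exact Ideal.mul_mem_right _ _ (k1o2_p_mem p)
  refine ⟨?_, ?_, k1o2_exists_sqrt p _ hmem⟩
  · rw [k1o2_maximalIdeal_eq, Ideal.mem_span_singleton] at hmem
    obtain ⟨t, ht⟩ := hmem
    exact ⟨t, by rw [← ht]; ring⟩
  · intro h
    have : (r : k1o2Ring p) = ((1 : ℕ) : k1o2Ring p) := by rw [h, Nat.cast_one]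
    exact hr1 (Nat.cast_injective this)

end instances

/-! ### summary -/

/-- **K1-O2**: for every odd prime `p` there is a coefficient ring as wanted by the K-machine
with residue field `𝔽_{p²}`: a complete discrete valuation ring `O` of characteristic `0` with
residue field of `p²` elements, uniformiser `λ = 1 - ζ`, `ζ` a primitive `p`-th root of unity,
`2` a unit, square roots of the elements `≡ 1 mod λ`, and every monic quadratic polynomial over
`𝔽_p` splits in the residue field. -/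
def StmtCoeff2 : Prop :=
  ∀ (p : ℕ) [Fact p.Prime], p ≠ 2 →
    ∃ (O : Type) (_ : CommRing O) (_ : IsDomain O) (_ : IsDiscreteValuationRing O)
      (_ : IsAdicComplete (maximalIdeal O) O) (_ : Finite (ResidueField O)) (_ : CharZero O)
      (lam ζ : O),
      maximalIdeal O = Ideal.span {lam} ∧ lam = 1 - ζ ∧ IsPrimitiveRoot ζ p ∧
        (p : O) ∈ maximalIdeal O ∧ IsUnit (2 : O) ∧ Nat.card (ResidueField O) = p ^ 2 ∧
        (∀ q : O, q - 1 ∈ maximalIdeal O → ∃ s t : O, s ^ 2 = q ∧ s = 1 + lam * t) ∧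
        (∃ tχ δ : O, tχ ^ 2 - δ ^ 2 = 1 ∧ (∃ r, tχ = 1 + lam * r) ∧ (∃ r, δ = lam * r) ∧
          tχ + δ = ζ ∧ (tχ - δ) * ζ = 1 ∧ δ ≠ 0) ∧
        (∀ (φ : ZMod p →+* ResidueField O) (f : (ZMod p)[X]), f.Monic → f.natDegree = 2 →
          ∃ α β : ResidueField O, f.map φ = (X - C α) * (X - C β))

theorem stmtCoeff2 : StmtCoeff2 := by
  intro p _ hp2
  haveI : Fact (p ≠ 2) := ⟨hp2⟩
  exact ⟨k1o2Ring p, inferInstance, inferInstance, inferInstance, inferInstance, inferInstance,
    inferInstance, k1o2Lam p, k1o2Zeta p, k1o2_maximalIdeal_eq p, k1o2Lam_eq p,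
    k1o2_zeta_primitive p, k1o2_p_mem p, k1o2_isUnit_two p, k1o2_card_residueField p,
    k1o2_exists_sqrt p, k1o2_exists_chi p, k1o2_residue_split p⟩

end Fermat.Agent.RT.K1

end
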