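/-
K-machine, piece K1-O2 (helper97), interface for `TWHyp.hsplit`:
the characteristic polynomials of a residual representation over `𝔽_p`, base-changed to a field
with `p²` elements (e.g. the residue field of `𝒪₂ = k1o2Ring p`), split.
-/
import Fermat.Agent.RT.K1.Coeff2
import Fermat.Prelude.Def_GaloisRep_Residual

set_option autoImplicit false
set_option linter.unusedSectionVars false
set_option linter.unusedVariables false
set_option linter.style.haveILetI false

noncomputable section

namespace Fermat.Agent.RT.K1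

open Polynomial IsLocalRing

/-- `hsplit` for a base change `ρ.baseChange K`, `K` a field with `p²` elements. -/
theorem k1o2_hsplit_baseChange (p : ℕ) [Fact p.Prime] {K : Type} [Field K] [Finite K]
    [Algebra (ZMod p) K] (hK : Nat.card K = p ^ 2) (ρ : ResidualGaloisRep (ZMod p))
    (σ : AlgebraicClosure ℚ ≃ₐ[ℚ] AlgebraicClosure ℚ) :
    ∃ α β : K, LinearMap.charpoly ((ρ.baseChange K).ρ σ) = (X - C α) * (X - C β) :=
  k1o2_split_linearMap_charpoly p hK ρ.finrank_eq (ρ.ρ σ)

/-- `hsplit` for a base change `ρ.baseChangeAlong φ`, `K` a field with `p²` elements. -/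
theorem k1o2_hsplit_baseChangeAlong (p : ℕ) [Fact p.Prime] {K : Type} [Field K] [Finite K]
    (hK : Nat.card K = p ^ 2) (φ : ZMod p →+* K) (ρ : ResidualGaloisRep (ZMod p))
    (σ : AlgebraicClosure ℚ ≃ₐ[ℚ] AlgebraicClosure ℚ) :
    ∃ α β : K, LinearMap.charpoly ((ρ.baseChangeAlong φ).ρ σ) = (X - C α) * (X - C β) := by
  letI : Algebra (ZMod p) K := φ.toAlgebra
  exact k1o2_hsplit_baseChange p hK ρ σ

/-- `hsplit` over the residue field of `𝒪₂`, for any algebra structure. -/
theorem k1o2_hsplit (p : ℕ) [Fact p.Prime] [Fact (p ≠ 2)]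
    [Algebra (ZMod p) (ResidueField (k1o2Ring p))] (ρ : ResidualGaloisRep (ZMod p))
    (σ : AlgebraicClosure ℚ ≃ₐ[ℚ] AlgebraicClosure ℚ) :
    ∃ α β : ResidueField (k1o2Ring p),
      LinearMap.charpoly ((ρ.baseChange (ResidueField (k1o2Ring p))).ρ σ) =
        (X - C α) * (X - C β) :=
  k1o2_hsplit_baseChange p (k1o2_card_residueField p) ρ σ

end Fermat.Agent.RT.K1

end
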